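/-
S48 (Deligne-Serre), block BB, sub-block P (the analytic family).  Definitions.
Sub-architect: helper297.  FROZEN INTERFACE (tell helper297 before touching).

* `gv M v = G_v / C'`, `G_v = ∑_{x ≡ v (M)} (x₀ τ + x₁)⁻³`, `C' = (-2πi)³ / (2 M³)`;
* `ta M a = C⁻¹ ∑_{x₀ ≡ a (M)} (x₀ τ + x₁)⁻³`, `C = (-2πi)³ / 2`;  `ua M a = (ta M a)⁴ / Δ`;
* `gCoeff M v n ∈ ℚ̄` : the coefficients of the expansion of `gv M v` in `t = exp (2πiτ/M)`.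
-/
import Fermat.Agent.S48.BB.Base
import Fermat.Agent.S48.IS.EisSet
import Fermat.Agent.S48.IS.EisQ
import Fermat.Agent.S48.IS.TB
import Fermat.Agent.Lib.JExpansion

set_option autoImplicit false

noncomputable section

namespace Fermat.Agent.S48.BB.P

open UpperHalfPlane hiding I
open Complex ModularForm
open Fermat.Agent.S24 Fermat.Agent.S24.B Fermat.Agent.S48.IS
open scoped Real

/-- The vectors of `ℤ²` congruent to `v` modulo `M`. -/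
def vecSet (M : ℕ) (v : Fin 2 → ZMod M) : Set (Fin 2 → ℤ) :=
  {x | ∀ i, ((x i : ℤ) : ZMod M) = v i}

/-- The vectors of `ℤ²` whose reduction modulo `M` lies in `S`. -/
def redSet (M : ℕ) (S : Set (Fin 2 → ZMod M)) : Set (Fin 2 → ℤ) :=
  {x | (fun i => ((x i : ℤ) : ZMod M)) ∈ S}

/-- `C = (-2πi)³ / 2`. -/
def C3 : ℂ := (-2 * π * I) ^ 3 / 2

/-- `C' = (-2πi)³ / (2 M³)`. -/
def C3' (M : ℕ) : ℂ := (-2 * π * I) ^ 3 / (2 * (M : ℂ) ^ 3)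

/-- `G_v / C'`. -/
def gv (M : ℕ) (v : Fin 2 → ZMod M) (τ : ℍ) : ℂ := eisSet (vecSet M v) 3 τ / C3' M

/-- `t_a = C⁻¹ ∑_{x₀ ≡ a} (x₀ τ + x₁)⁻³`. -/
def ta (M : ℕ) (a : ZMod M) (τ : ℍ) : ℂ := eisSet (colSet M a) 3 τ / C3

/-- `u_a = t_a⁴ / Δ`. -/
def ua (M : ℕ) (a : ZMod M) (τ : ℍ) : ℂ := ta M a τ ^ 4 / discriminant τ

/-- `ζ_M ^ a` for `a ∈ ℤ/M`. -/
def zpw (M : ℕ) [NeZero M] (a : ZMod M) : Kbar := ((zetaK M : Kbarˣ) : Kbar) ^ a.val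

/-- The constant term of `G_v / C'`. -/
def kap (M : ℕ) [NeZero M] (v : Fin 2 → ZMod M) : Kbar :=
  if v 0 = 0 then zpw M (v 1) * (1 + zpw M (v 1)) / (1 - zpw M (v 1)) ^ 3 else 0

/-- The coefficients of the `t`-expansion of `G_v / C'`. -/
def gCoeff (M : ℕ) [NeZero M] (v : Fin 2 → ZMod M) (n : ℕ) : Kbar :=
  if n = 0 then kap M v else
    ∑ c ∈ n.divisors,
      ((if (c : ZMod M) = v 0 then ((n / c : ℕ) : Kbar) ^ 2 * zpw M ((n / c : ℕ) * v 1) else 0) -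
        (if (c : ZMod M) = -v 0 then ((n / c : ℕ) : Kbar) ^ 2 * zpw M (-((n / c : ℕ) * v 1))
          else 0))

/-- The sum of the row `x₀ = c`, `x₁ ≡ b (M)`. -/
def rowSum (M : ℕ) (c : ℤ) (b : ZMod M) (τ : ℍ) : ℂ :=
  ∑' d : ℤ, if ((d : ℤ) : ZMod M) = b then EisensteinSeries.eisSummand 3 ![c, d] τ else 0

end Fermat.Agent.S48.BB.P
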