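/-
S48 (Deligne-Serre), block BB, sub-block P.  TASK BB-P-9.   Sub-architect: helper297.
STUB: the statements are FROZEN (keep them verbatim); the task owner replaces every unfinished proof.
Helper lemmas: same file, namespace `Fermat.Agent.S48.BB.P.Decomp`.

`eisSet_redSet`: `eisSet S k z = ∑' x, S.indicator (eisSummand k · z) x` (`tsum_subtype`); the indicator of `redSet M S` is
the finite sum of the indicators of the `vecSet M v`, `v ∈ S` (pairwise disjoint); `Summable.tsum_finsetSum`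
(summability: `summable_norm_eisSummand (k := 3)`, `Summable.indicator`).  Or induction on `S` with `tsum_union_disjoint`.
`image_redSet`: reduction mod `M` commutes with `ᵥ*` (`Matrix.vecMul`, `Fin.sum_univ_two`, `push_cast`); for `⊇` use
`γ⁻¹` as in `S48.IS.image_colSet`.
-/
import Fermat.Agent.S48.BB.P.Defs

set_option autoImplicit false

noncomputable section

namespace Fermat.Agent.S48.BB.P

open UpperHalfPlane hiding I
open Complex ModularForm EisensteinSeries ModularCurve Matrix CongruenceSubgroup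
open Fermat.Agent.S24 Fermat.Agent.S24.B Fermat.Agent.GAL.Mult Fermat.Agent.S48.IS
open scoped Real MatrixGroups Manifold

local notation "𝕢" => Function.Periodic.qParam

namespace Decomp

/-- reduction modulo `M`. -/
def red (M : ℕ) (x : Fin 2 → ℤ) : Fin 2 → ZMod M := fun i => ((x i : ℤ) : ZMod M)

theorem mem_vecSet_iff (M : ℕ) (v : Fin 2 → ZMod M) (x : Fin 2 → ℤ) :
    x ∈ vecSet M v ↔ red M x = v :=
  ⟨fun h => funext h, fun h i => congrFun h i⟩

theorem mem_redSet_iff (M : ℕ) (S : Set (Fin 2 → ZMod M)) (x : Fin 2 → ℤ) :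
    x ∈ redSet M S ↔ red M x ∈ S := Iff.rfl

theorem red_vecMul (M : ℕ) (x : Fin 2 → ℤ) (A : Matrix (Fin 2) (Fin 2) ℤ) :
    red M (x ᵥ* A) = red M x ᵥ* A.map (Int.cast : ℤ → ZMod M) := by
  funext i
  exact RingHom.map_vecMul (Int.castRingHom (ZMod M)) A x i

theorem eisSet_eq_tsum_indicator (S : Set (Fin 2 → ℤ)) (τ : ℍ) :
    eisSet S 3 τ = ∑' x, S.indicator (fun x => eisSummand 3 x τ) x := by
  unfold eisSet
  exact tsum_subtype S (fun v => eisSummand 3 v τ)

theorem summable_indicator (S : Set (Fin 2 → ℤ)) (τ : ℍ) :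
    Summable (S.indicator (fun x => eisSummand 3 x τ)) :=
  (summable_norm_iff.mp (summable_norm_eisSummand (k := 3) le_rfl τ)).indicator S

end Decomp

open Decomp in
theorem eisSet_redSet (M : ℕ) [NeZero M] (S : Finset (Fin 2 → ZMod M)) (τ : ℍ) :
    eisSet (redSet M (S : Set (Fin 2 → ZMod M))) 3 τ = ∑ v ∈ S, eisSet (vecSet M v) 3 τ := by
  classical
  simp only [eisSet_eq_tsum_indicator]
  rw [← Summable.tsum_finsetSum fun v _ => summable_indicator (vecSet M v) τ]
  refine tsum_congr fun x => ?_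
  have h1 : ∀ v, (vecSet M v).indicator (fun x => eisSummand 3 x τ) x =
      if red M x = v then eisSummand 3 x τ else 0 := by
    intro v
    by_cases hv : red M x = v
    · rw [if_pos hv, Set.indicator_of_mem ((mem_vecSet_iff M v x).mpr hv)]
    · rw [if_neg hv, Set.indicator_of_notMem fun h => hv ((mem_vecSet_iff M v x).mp h)]
  simp only [h1]
  rw [Finset.sum_ite_eq]
  by_cases hx : red M x ∈ S
  · rw [if_pos hx, Set.indicator_of_mem]
    exact hx
  · rw [if_neg hx, Set.indicator_of_notMem]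
    exact hx

theorem colSet_eq_redSet (M : ℕ) (a : ZMod M) : colSet M a = redSet M {v | v 0 = a} := rfl

theorem image_redSet (M : ℕ) (S : Set (Fin 2 → ZMod M)) (γ : SL(2, ℤ)) :
    (fun x => x ᵥ* (γ : Matrix (Fin 2) (Fin 2) ℤ)) '' redSet M S =
      redSet M ((fun v => v ᵥ* ((γ : Matrix (Fin 2) (Fin 2) ℤ).map (Int.cast : ℤ → ZMod M))) '' S) := by
  ext w
  constructor
  · rintro ⟨x, hx, rfl⟩
    exact ⟨Decomp.red M x, hx, (Decomp.red_vecMul M x _).symm⟩
  · rintro ⟨v, hv, hvw⟩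
    have hvw' : v ᵥ* ((γ : Matrix (Fin 2) (Fin 2) ℤ).map (Int.cast : ℤ → ZMod M)) =
      Decomp.red M w := hvw
    refine ⟨w ᵥ* ((γ⁻¹ : SL(2, ℤ)) : Matrix (Fin 2) (Fin 2) ℤ), ?_, ?_⟩
    · rw [Decomp.mem_redSet_iff, Decomp.red_vecMul, ← hvw', Matrix.vecMul_vecMul]
      have h1 : ((γ : Matrix (Fin 2) (Fin 2) ℤ).map (Int.cast : ℤ → ZMod M)) *
          (((γ⁻¹ : SL(2, ℤ)) : Matrix (Fin 2) (Fin 2) ℤ).map (Int.cast : ℤ → ZMod M)) = 1 := by
        have h2 := Matrix.map_mul (L := (γ : Matrix (Fin 2) (Fin 2) ℤ))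
          (M := ((γ⁻¹ : SL(2, ℤ)) : Matrix (Fin 2) (Fin 2) ℤ)) (f := Int.castRingHom (ZMod M))
        rw [← Matrix.SpecialLinearGroup.coe_mul, mul_inv_cancel,
          Matrix.SpecialLinearGroup.coe_one] at h2
        simp only [Int.coe_castRingHom] at h2
        rw [← h2]
        exact Matrix.map_one _ Int.cast_zero Int.cast_one
      rw [h1, Matrix.vecMul_one]
      exact hv
    · show (w ᵥ* ((γ⁻¹ : SL(2, ℤ)) : Matrix (Fin 2) (Fin 2) ℤ)) ᵥ* (γ : Matrix (Fin 2) (Fin 2) ℤ) = w
      rw [Matrix.vecMul_vecMul, ← Matrix.SpecialLinearGroup.coe_mul, inv_mul_cancel,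
        Matrix.SpecialLinearGroup.coe_one, Matrix.vecMul_one]

end Fermat.Agent.S48.BB.P
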