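/-
S48 (Deligne-Serre), block BB, sub-block P.  TASK BB-P-2.   Sub-architect: helper297.
The statements are FROZEN (keep them verbatim).
Helper lemmas: same file, namespace `Fermat.Agent.S48.BB.P.OfNat`.

`Function.Injective.hasSum_iff` for `Nat.cast : ℕ → ℤ`; `HahnSeries.ofPowerSeries_apply_coeff`, the coefficients of
negative index vanish (see `S24.HasTExp.hasSum_nat` in S24/B/TExpBasic.lean for the converse direction).
-/
import Fermat.Agent.S48.BB.P.Defs

set_option autoImplicit false

noncomputable section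

namespace Fermat.Agent.S48.BB.P

open UpperHalfPlane hiding I
open Complex ModularForm EisensteinSeries ModularCurve Matrix CongruenceSubgroup
open Fermat.Agent.S24 Fermat.Agent.S24.B Fermat.Agent.GAL.Mult Fermat.Agent.S48.IS
open scoped Real MatrixGroups Manifold

local notation "𝕢" => Function.Periodic.qParam

theorem hasTExp_of_hasSum_nat {N : ℕ} {f : ℍ → ℂ} {c : ℕ → Kbar}
    (h : ∀ τ : ℍ, HasSum (fun n : ℕ => iota (c n) * 𝕢 N τ ^ n) (f τ)) :
    HasTExp N f (HahnSeries.ofPowerSeries ℤ Kbar (PowerSeries.mk c)) := by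
  intro τ
  refine (Function.Injective.hasSum_iff
    (f := fun n : ℤ => iota ((HahnSeries.ofPowerSeries ℤ Kbar (PowerSeries.mk c)).coeff n) *
      𝕢 N τ ^ n)
    (g := (Nat.cast : ℕ → ℤ)) Nat.cast_injective ?_).mp ?_
  · intro x hx
    have h0 : (HahnSeries.ofPowerSeries ℤ Kbar (PowerSeries.mk c)).coeff x = 0 := by
      rw [HahnSeries.ofPowerSeries_apply]
      refine HahnSeries.embDomain_of_notMem_range ?_
      rintro ⟨m, hm⟩
      exact hx ⟨m, hm⟩
    rw [h0, map_zero, zero_mul]
  · have e : ((fun n : ℤ => iota ((HahnSeries.ofPowerSeries ℤ Kbar (PowerSeries.mk c)).coeff n) *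
        𝕢 N τ ^ n) ∘ (Nat.cast : ℕ → ℤ)) = fun n : ℕ => iota (c n) * 𝕢 N τ ^ n := by
      funext n
      simp only [Function.comp_apply, HahnSeries.ofPowerSeries_apply_coeff, PowerSeries.coeff_mk,
        zpow_natCast]
    rw [e]
    exact h τ

end Fermat.Agent.S48.BB.P
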