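/-
S48 (Deligne-Serre), block BB, sub-block P.  TASK BB-P-6.   Sub-architect: helper297.
Statements FROZEN (verbatim). Proved by helper147.
Helper lemmas: same file, namespace `Fermat.Agent.S48.BB.P.Regroup`.

Copy the proof of `S48.IS.EisQ.hasSum_regroup` (S48/IS/EisQ.lean), where `ε` depends only on `c`; nothing changes.
-/
import Fermat.Agent.S48.BB.P.Defs

set_option autoImplicit false

noncomputable section

namespace Fermat.Agent.S48.BB.P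

open UpperHalfPlane hiding I
open Complex ModularForm EisensteinSeries ModularCurve Matrix CongruenceSubgroup
open Fermat.Agent.S24 Fermat.Agent.S24.B Fermat.Agent.GAL.Mult Fermat.Agent.S48.IS
open scoped Real MatrixGroups Manifold

local notation "𝕢" => Function.Periodic.qParam

theorem hasSum_regroup2 (ε : ℕ → ℕ → ℂ) (hε : ∀ c r, ‖ε c r‖ ≤ 1) {x : ℂ} (hx : ‖x‖ < 1) :
    Summable (fun p : ℕ+ × ℕ+ => ε p.1 p.2 * (p.2 : ℂ) ^ 2 * x ^ (p.1 * p.2 : ℕ)) ∧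
    HasSum (fun m : ℕ+ => (∑ c ∈ (m : ℕ).divisors,
        ε c ((m : ℕ) / c) * (((m : ℕ) / c : ℕ) : ℂ) ^ 2) * x ^ (m : ℕ))
      (∑' c : ℕ+, ∑' r : ℕ+, ε c r * (r : ℂ) ^ 2 * x ^ (c * r : ℕ)) := by
  set f : ℕ+ × ℕ+ → ℂ := fun p => ε p.1 p.2 * (p.2 : ℂ) ^ 2 * x ^ (p.1 * p.2 : ℕ) with hf
  have hsum : Summable f := by
    refine Summable.of_norm_bounded (summable_prod_mul_pow (𝕜 := ℂ) 2 hx).norm fun p => ?_
    rw [hf]
    simp only [norm_mul]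
    calc ‖ε p.1 p.2‖ * ‖(p.2 : ℂ) ^ 2‖ * ‖x ^ (p.1 * p.2 : ℕ)‖
        ≤ 1 * ‖(p.2 : ℂ) ^ 2‖ * ‖x ^ (p.1 * p.2 : ℕ)‖ := by gcongr; exact hε _ _
      _ = _ := by rw [one_mul]
  refine ⟨hsum, ?_⟩
  have h1 : HasSum f (∑' c : ℕ+, ∑' r : ℕ+, ε c r * (r : ℂ) ^ 2 * x ^ (c * r : ℕ)) := by
    rw [← hsum.tsum_prod]
    exact hsum.hasSum
  have h2 := (sigmaAntidiagonalEquivProd.hasSum_iff).mpr h1
  refine h2.sigma fun m => ?_
  have h3 := hasSum_fintype (fun y : (m : ℕ).divisorsAntidiagonal =>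
    (f ∘ sigmaAntidiagonalEquivProd) ⟨m, y⟩)
  convert h3 using 1
  rw [Finset.sum_mul]
  have h4 : ∀ y : (m : ℕ).divisorsAntidiagonal, (f ∘ sigmaAntidiagonalEquivProd) ⟨m, y⟩ =
      ε y.1.1 y.1.2 * (y.1.2 : ℂ) ^ 2 * x ^ (y.1.1 * y.1.2) := fun y => rfl
  simp only [h4]
  rw [Finset.univ_eq_attach,
    (m : ℕ).divisorsAntidiagonal.sum_attach
      (fun y : ℕ × ℕ => ε y.1 y.2 * (y.2 : ℂ) ^ 2 * x ^ (y.1 * y.2)),
    Nat.sum_divisorsAntidiagonal (fun a b => ε a b * (b : ℂ) ^ 2 * x ^ (a * b))]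
  refine Finset.sum_congr rfl fun i hi => ?_
  rw [Nat.mul_div_cancel' (Nat.dvd_of_mem_divisors hi)]

end Fermat.Agent.S48.BB.P
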