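/-
S48 (Deligne-Serre), block BB, sub-block P.  TASK BB-P-4.   Sub-architect: helper297.
PROVED (helper11); the statements are FROZEN.
Helper lemmas: same file, namespace `Fermat.Agent.S48.BB.P.Cube`.

`tsum_inv_cube_of_im_pos`: Mathlib `EisensteinSeries.qExpansion_identity (k := 2)`:
`∑' n : ℤ, 1/(z+n)^3 = ((-2πi)^3/2!) ∑' n : ℕ, n^2 X^n`, and `∑ n² Xⁿ = X(1+X)/(1-X)³` for `‖X‖ < 1`
(`n² = 2 C(n+2,2) - 3 C(n+1,1) + 1`, `hasSum_choose_mul_geometric_of_norm_lt_one`; or differentiate / use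
`hasSum_coe_mul_geometric_of_norm_lt_one` twice).
`tsum_inv_cube_real`: limit `z = x + iε`, `ε → 0+` (e.g. `ε = 1/(k+1)`).  LHS: `tendsto_tsum_of_dominated_convergence`
with the bound `‖1/(z+n)^3‖ ≤ 1/|x+n|^3` (`‖z+n‖ ≥ |re| = |x+n|`), summable over `ℤ`
(e.g. `EisensteinSeries.linear_right_summable`-type lemmas, or comparison with `1/n^2`...; note `x + n ≠ 0`).
RHS: continuity of `X ↦ X(1+X)/(1-X)³` at `X₀ = cexp (2πi x) ≠ 1` (`Complex.exp_eq_one_iff`).  `tendsto_nhds_unique`.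
-/
import Fermat.Agent.S48.BB.P.Defs

set_option autoImplicit false

noncomputable section

namespace Fermat.Agent.S48.BB.P

open UpperHalfPlane hiding I
open Complex ModularForm EisensteinSeries ModularCurve Matrix CongruenceSubgroup
open Fermat.Agent.S24 Fermat.Agent.S24.B Fermat.Agent.GAL.Mult Fermat.Agent.S48.IS
open scoped Real MatrixGroups Manifold

local notation "𝕢" => Function.Periodic.qParam

namespace Cube

open Filter Topology

theorem hasSum_sq_mul_geometric {r : ℂ} (hr : ‖r‖ < 1) :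
    HasSum (fun n : ℕ => (n : ℂ) ^ 2 * r ^ n) (r * (1 + r) / (1 - r) ^ 3) := by
  have h2 := (hasSum_choose_mul_geometric_of_norm_lt_one 2 hr).mul_left 2
  have h1 := (hasSum_choose_mul_geometric_of_norm_lt_one 1 hr).mul_left 3
  have h0 := hasSum_choose_mul_geometric_of_norm_lt_one 0 hr
  have hne : (1 - r) ≠ 0 := by
    intro h
    have : r = 1 := (sub_eq_zero.1 h).symm
    rw [this, norm_one] at hr
    exact lt_irrefl _ hr
  convert! (h2.sub h1).add h0 using 1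
  · ext n
    rw [Nat.cast_choose_two]
    simp only [Nat.choose_one_right, Nat.choose_zero_right]
    push_cast
    ring
  · field_simp
    ring

theorem ofReal_add_int_ne_zero {x : ℝ} (hx : ∀ n : ℤ, x ≠ n) (n : ℤ) : (x : ℂ) + n ≠ 0 := by
  intro h
  have h' : ((x + n : ℝ) : ℂ) = 0 := by push_cast; exact h
  rw [ofReal_eq_zero] at h'
  apply hx (-n)
  push_cast
  linarith

theorem exp_ne_one {x : ℝ} (hx : ∀ n : ℤ, x ≠ n) : cexp (2 * π * I * x) ≠ 1 := by
  intro h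
  obtain ⟨n, hn⟩ := Complex.exp_eq_one_iff.1 h
  have h2 : (2 * π * I : ℂ) ≠ 0 := by
    simp [Real.pi_ne_zero]
  have h3 : (x : ℂ) = n := by
    apply mul_left_cancel₀ h2
    rw [hn]
    ring
  apply hx n
  exact_mod_cast h3

end Cube

open Fermat.Agent.S48.BB.P.Cube Filter Topology in
theorem tsum_inv_cube_of_im_pos (z : ℍ) :
    ∑' n : ℤ, 1 / ((z : ℂ) + n) ^ 3 =
      C3 * (cexp (2 * π * I * z) * (1 + cexp (2 * π * I * z)) / (1 - cexp (2 * π * I * z)) ^ 3) := by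
  have h := EisensteinSeries.qExpansion_identity (k := 2) (by norm_num) z
  rw [(hasSum_sq_mul_geometric (UpperHalfPlane.norm_exp_two_pi_I_lt_one z)).tsum_eq] at h
  rw [C3]
  simpa using h

open Fermat.Agent.S48.BB.P.Cube Filter Topology in
theorem tsum_inv_cube_real (x : ℝ) (hx : ∀ n : ℤ, x ≠ n) :
    ∑' n : ℤ, 1 / ((x : ℂ) + n) ^ 3 =
      C3 * (cexp (2 * π * I * x) * (1 + cexp (2 * π * I * x)) / (1 - cexp (2 * π * I * x)) ^ 3) := by
  have hpos : ∀ k : ℕ, 0 < ((x : ℂ) + ((1 / ((k : ℝ) + 1) : ℝ) : ℂ) * I).im := by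
    intro k
    have : ((x : ℂ) + ((1 / ((k : ℝ) + 1) : ℝ) : ℂ) * I).im = 1 / ((k : ℝ) + 1) := by
      rw [add_im, ofReal_im, im_ofReal_mul, Complex.I_im, zero_add, mul_one]
    rw [this]
    positivity
  let zk : ℕ → ℍ := fun k => ⟨(x : ℂ) + ((1 / ((k : ℝ) + 1) : ℝ) : ℂ) * I, hpos k⟩
  have hzk : ∀ k, ((zk k : ℍ) : ℂ) = (x : ℂ) + ((1 / ((k : ℝ) + 1) : ℝ) : ℂ) * I := fun _ => rfl
  have hz : Tendsto (fun k => ((zk k : ℍ) : ℂ)) atTop (𝓝 (x : ℂ)) := by
    have h1 : Tendsto (fun k : ℕ => ((1 / ((k : ℝ) + 1) : ℝ) : ℂ)) atTop (𝓝 ((0 : ℝ) : ℂ)) :=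
      (Complex.continuous_ofReal.tendsto 0).comp tendsto_one_div_add_atTop_nhds_zero_nat
    have h2 := (h1.mul_const I).const_add (x : ℂ)
    rw [ofReal_zero, zero_mul, add_zero] at h2
    exact h2
  have hsum : Summable fun n : ℤ => 1 / ‖(x : ℂ) + n‖ ^ 3 := by
    have h := (EisensteinSeries.linear_right_summable (x : ℂ) 1 (k := 3) (by norm_num)).norm
    refine h.congr fun n => ?_
    rw [norm_inv, one_div]
    congr 1
    rw [show ((3 : ℤ)) = ((3 : ℕ) : ℤ) by norm_num, zpow_natCast, norm_pow]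
    simp
  have hL : Tendsto (fun k => ∑' n : ℤ, 1 / (((zk k : ℍ) : ℂ) + n) ^ 3) atTop
      (𝓝 (∑' n : ℤ, 1 / ((x : ℂ) + n) ^ 3)) := by
    refine tendsto_tsum_of_dominated_convergence hsum (fun n => ?_) (Eventually.of_forall fun k n => ?_)
    · exact Tendsto.div tendsto_const_nhds ((hz.add_const _).pow 3)
        (pow_ne_zero 3 (ofReal_add_int_ne_zero hx n))
    · rw [norm_div, norm_one, norm_pow]
      have h0 : 0 < ‖(x : ℂ) + n‖ := norm_pos_iff.2 (ofReal_add_int_ne_zero hx n)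
      refine one_div_le_one_div_of_le (pow_pos h0 3) (pow_le_pow_left₀ h0.le ?_ 3)
      have e1 : ‖(x : ℂ) + n‖ = |x + n| := by
        rw [show (x : ℂ) + n = ((x + n : ℝ) : ℂ) by push_cast; rfl, Complex.norm_real,
          Real.norm_eq_abs]
      have e2 : (((zk k : ℍ) : ℂ) + n).re = x + n := by
        rw [hzk, add_re, add_re, ofReal_re, re_ofReal_mul, Complex.I_re, mul_zero, add_zero, intCast_re]
      rw [e1, ← e2]
      exact Complex.abs_re_le_norm _
  have hR : Tendsto (fun k => C3 * (cexp (2 * π * I * (zk k : ℍ)) * (1 + cexp (2 * π * I * (zk k : ℍ))) /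
      (1 - cexp (2 * π * I * (zk k : ℍ))) ^ 3)) atTop
      (𝓝 (C3 * (cexp (2 * π * I * x) * (1 + cexp (2 * π * I * x)) /
        (1 - cexp (2 * π * I * x)) ^ 3))) := by
    have hE : Tendsto (fun k => cexp (2 * π * I * (zk k : ℍ))) atTop (𝓝 (cexp (2 * π * I * x))) :=
      (Complex.continuous_exp.tendsto _).comp (hz.const_mul _)
    refine Tendsto.const_mul _ (Tendsto.div (hE.mul (hE.const_add 1)) ((hE.const_sub 1).pow 3) ?_)
    exact pow_ne_zero 3 (sub_ne_zero.2 (exp_ne_one hx).symm)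
  refine tendsto_nhds_unique hL ?_
  simp only [tsum_inv_cube_of_im_pos]
  exact hR

end Fermat.Agent.S48.BB.P
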