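/-
S48 (Deligne-Serre), block BB, sub-block P.  TASK BB-P-5.   Sub-architect: helper297.
The sums over one row `x₀ = c`, `x₁ ≡ b (M)` of `(x₀ τ + x₁)⁻³`.

`iota_zpw`: `S24.B.iota_zetaK`, `map_pow`, `← Complex.exp_nat_mul`.
Reindex `{d : ℤ | d ≡ b (M)}` by `n ↦ b.val + M n`, `(cτ + b.val + M n)⁻³ = M⁻³ ((cτ + b.val)/M + n)⁻³`.
`rowSum_pos`: `EisensteinSeries.qExpansion_identity_pnat (k := 2)` at `z = (cτ + b.val)/M ∈ ℍ`.
`rowSum_neg`: `d ↦ -d`.  `rowSum_zero`: `tsum_inv_cube_real (b.val / M)`.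
-/
import Fermat.Agent.S48.BB.P.Cube

set_option autoImplicit false

noncomputable section

namespace Fermat.Agent.S48.BB.P

open UpperHalfPlane hiding I
open Complex ModularForm EisensteinSeries ModularCurve Matrix CongruenceSubgroup
open Fermat.Agent.S24 Fermat.Agent.S24.B Fermat.Agent.GAL.Mult Fermat.Agent.S48.IS
open scoped Real MatrixGroups Manifold

local notation "𝕢" => Function.Periodic.qParam

theorem iota_zpw (M : ℕ) [NeZero M] (a : ZMod M) :
    iota (zpw M a) = cexp (2 * π * I * a.val / M) := by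
  unfold zpw
  rw [map_pow, iota_zetaK, ← Complex.exp_nat_mul]
  congr 1
  ring

namespace Row

/-- reindexing of a residue class -/
theorem tsum_ite_eq (M : ℕ) [NeZero M] (b : ZMod M) (f : ℤ → ℂ) :
    ∑' d : ℤ, (if ((d : ℤ) : ZMod M) = b then f d else 0) =
      ∑' n : ℤ, f ((b.val : ℤ) + (M : ℤ) * n) := by
  have hM : (M : ℤ) ≠ 0 := by exact_mod_cast NeZero.ne M
  have hinj : Function.Injective (fun n : ℤ => (b.val : ℤ) + (M : ℤ) * n) := by
    intro x y hxy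
    have h1 : (M : ℤ) * x = (M : ℤ) * y := by simpa using hxy
    exact mul_left_cancel₀ hM h1
  rw [← hinj.tsum_eq (f := fun d : ℤ => if ((d : ℤ) : ZMod M) = b then f d else 0)]
  · refine tsum_congr fun n => ?_
    have : ((((b.val : ℤ) + (M : ℤ) * n : ℤ)) : ZMod M) = b := by
      push_cast
      simp
    simp only [this, if_true]
  · intro d hd
    have hdb : ((d : ℤ) : ZMod M) = b := by
      by_contra h
      simp [h] at hd
    have h2 : (((d - (b.val : ℤ) : ℤ)) : ZMod M) = 0 := by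
      push_cast
      simp [hdb]
    obtain ⟨n, hn⟩ := (ZMod.intCast_zmod_eq_zero_iff_dvd _ M).mp h2
    exact ⟨n, by simp only []; omega⟩

/-- `exp (2πi k / M)` depends only on `k` modulo `M` -/
theorem exp_val_natCast (M : ℕ) [NeZero M] (k : ℕ) :
    cexp (2 * π * I * ((k : ZMod M).val : ℕ) / M) = cexp (2 * π * I * k / M) := by
  have hM : (M : ℂ) ≠ 0 := by exact_mod_cast NeZero.ne M
  rw [ZMod.val_natCast]
  have h1 : (k : ℂ) = ((k % M : ℕ) : ℂ) + (M : ℂ) * ((k / M : ℕ) : ℂ) := by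
    exact_mod_cast (Nat.mod_add_div k M).symm
  have h2 : 2 * π * I * (k : ℂ) / M =
      2 * π * I * ((k % M : ℕ) : ℂ) / M + ((k / M : ℕ) : ℂ) * (2 * π * I) := by
    rw [h1]
    field_simp
  rw [h2, Complex.exp_add, Complex.exp_nat_mul_two_pi_mul_I, mul_one]

theorem iota_zpw_natCast_mul (M : ℕ) [NeZero M] (r : ℕ) (b : ZMod M) :
    iota (zpw M ((r : ZMod M) * b)) = cexp (2 * π * I * (r * b.val : ℕ) / M) := by
  have h : (r : ZMod M) * b = ((r * b.val : ℕ) : ZMod M) := by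
    push_cast
    simp
  rw [iota_zpw, h, exp_val_natCast]

theorem eisSummand_reindex (M : ℕ) [NeZero M] (c : ℤ) (b : ZMod M) (τ : ℍ) (n : ℤ) :
    eisSummand 3 ![c, (b.val : ℤ) + (M : ℤ) * n] τ =
      (1 / (M : ℂ) ^ 3) * (1 / ((((c : ℂ) * τ + b.val) / M) + n) ^ 3) := by
  have hM : (M : ℂ) ≠ 0 := by exact_mod_cast NeZero.ne M
  simp only [eisSummand, Matrix.cons_val_zero, Matrix.cons_val_one, Matrix.cons_val_fin_one]
  have h1 : (c : ℂ) * τ + (((b.val : ℤ) + (M : ℤ) * n : ℤ) : ℂ) =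
      (M : ℂ) * ((((c : ℂ) * τ + b.val) / M) + n) := by
    push_cast
    field_simp
    ring
  rw [h1, _root_.zpow_neg, mul_zpow]
  have h3 : ∀ x : ℂ, x ^ (3 : ℤ) = x ^ 3 := fun x => by norm_cast
  rw [h3, h3, mul_inv, one_div, one_div]

theorem rowSum_eq (M : ℕ) [NeZero M] (c : ℤ) (b : ZMod M) (τ : ℍ) :
    rowSum M c b τ =
      (1 / (M : ℂ) ^ 3) * ∑' n : ℤ, 1 / ((((c : ℂ) * τ + b.val) / M) + n) ^ 3 := by
  unfold rowSum
  rw [tsum_ite_eq M b (fun d => eisSummand 3 ![c, d] τ), ← tsum_mul_left]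
  exact tsum_congr fun n => eisSummand_reindex M c b τ n

end Row

theorem rowSum_pos (M : ℕ) [NeZero M] (c : ℕ+) (b : ZMod M) (τ : ℍ) :
    rowSum M (c : ℕ) b τ =
      C3' M * ∑' r : ℕ+, (r : ℂ) ^ 2 * iota (zpw M ((r : ℕ) * b)) * 𝕢 M τ ^ (c * r : ℕ) := by
  have hM : (M : ℂ) ≠ 0 := by exact_mod_cast NeZero.ne M
  have hMpos : (0 : ℝ) < M := by exact_mod_cast Nat.pos_of_ne_zero (NeZero.ne M)
  have him : 0 < ((((c : ℕ) : ℂ) * τ + b.val) / M).im := by
    have h1 : ((((c : ℕ) : ℂ) * τ + b.val) / M).im = ((c : ℕ) : ℝ) * τ.im / M := by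
      have : ((((c : ℕ) : ℂ) * τ + b.val) / M) =
          ((((((c : ℕ) : ℝ) / M : ℝ) : ℂ) * τ + ((b.val / M : ℝ) : ℂ))) := by
        push_cast
        field_simp
      rw [this, Complex.add_im, Complex.im_ofReal_mul, Complex.ofReal_im]
      simp only [UpperHalfPlane.coe_im, add_zero]
      ring
    rw [h1]
    have hc : (0 : ℝ) < ((c : ℕ) : ℝ) := by exact_mod_cast c.pos
    have := τ.im_pos
    positivity
  have H := qExpansion_identity_pnat (k := 2) (by norm_num)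
    ⟨(((c : ℕ) : ℂ) * τ + b.val) / M, him⟩
  have hrow := Row.rowSum_eq M ((c : ℕ) : ℤ) b τ
  rw [hrow]
  have e0 : ((((c : ℕ) : ℤ) : ℂ)) = ((c : ℕ) : ℂ) := by push_cast; rfl
  rw [e0]
  have H' : ∑' n : ℤ, 1 / (((((c : ℕ) : ℂ) * τ + b.val) / M) + n) ^ 3 =
      ((-2 * π * I) ^ 3 / 2) * ∑' r : ℕ+, (r : ℂ) ^ 2 *
        cexp (2 * π * I * ((((c : ℕ) : ℂ) * τ + b.val) / M)) ^ (r : ℕ) := by
    simpa using H
  rw [H']
  have e2 : ∀ r : ℕ+, (r : ℂ) ^ 2 *
        cexp (2 * π * I * ((((c : ℕ) : ℂ) * τ + b.val) / M)) ^ (r : ℕ) =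
      (r : ℂ) ^ 2 * iota (zpw M ((r : ℕ) * b)) * 𝕢 M τ ^ (c * r : ℕ) := by
    intro r
    rw [Row.iota_zpw_natCast_mul, Function.Periodic.qParam, ← Complex.exp_nat_mul,
      ← Complex.exp_nat_mul, mul_assoc ((r : ℂ) ^ 2), ← Complex.exp_add]
    congr 2
    push_cast
    field_simp
    ring
  rw [tsum_congr e2]
  unfold C3'
  field_simp

theorem rowSum_neg (M : ℕ) (c : ℤ) (b : ZMod M) (τ : ℍ) :
    rowSum M (-c) b τ = -rowSum M c (-b) τ := by
  unfold rowSum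
  rw [← tsum_neg, ← (Equiv.neg ℤ).tsum_eq]
  refine tsum_congr fun d => ?_
  simp only [Equiv.neg_apply]
  have hiff : (((-d : ℤ)) : ZMod M) = b ↔ ((d : ℤ) : ZMod M) = -b := by
    push_cast
    exact neg_eq_iff_eq_neg
  have hs : eisSummand 3 ![-c, -d] τ = -eisSummand 3 ![c, d] τ := by
    simp only [eisSummand, Matrix.cons_val_zero, Matrix.cons_val_one, Matrix.cons_val_fin_one]
    have : ((-c : ℤ) : ℂ) * τ + ((-d : ℤ) : ℂ) = -((c : ℂ) * τ + d) := by push_cast; ring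
    rw [this, _root_.zpow_neg, _root_.zpow_neg, Odd.neg_zpow ⟨1, by norm_num⟩, inv_neg]
  by_cases h : ((d : ℤ) : ZMod M) = -b
  · rw [if_pos (hiff.mpr h), if_pos h, hs]
  · rw [if_neg (fun h' => h (hiff.mp h')), if_neg h, neg_zero]

theorem rowSum_zero (M : ℕ) [NeZero M] (b : ZMod M) (hb : b ≠ 0) (τ : ℍ) :
    rowSum M 0 b τ = C3' M * iota (zpw M b * (1 + zpw M b) / (1 - zpw M b) ^ 3) := by
  have hM : (M : ℂ) ≠ 0 := by exact_mod_cast NeZero.ne M
  have hMpos : (0 : ℝ) < M := by exact_mod_cast Nat.pos_of_ne_zero (NeZero.ne M)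
  have hv0 : 0 < b.val := Nat.pos_of_ne_zero (fun h => hb ((ZMod.val_eq_zero b).mp h))
  have hvM : b.val < M := ZMod.val_lt b
  have hx : ∀ n : ℤ, ((b.val : ℝ) / M) ≠ n := by
    intro n hn
    have h1 : (b.val : ℝ) = n * M := by
      field_simp at hn
      rw [hn]; ring
    have h2 : (b.val : ℤ) = n * M := by exact_mod_cast h1
    have h3 : (0 : ℤ) < n * M := by rw [← h2]; exact_mod_cast hv0
    have h4 : n * (M : ℤ) < M := by rw [← h2]; exact_mod_cast hvM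
    have hMz : (0 : ℤ) < M := by exact_mod_cast Nat.pos_of_ne_zero (NeZero.ne M)
    have h5 : 0 < n := by
      by_contra hcon
      have : n ≤ 0 := not_lt.mp hcon
      nlinarith
    nlinarith
  have H := tsum_inv_cube_real ((b.val : ℝ) / M) hx
  rw [Row.rowSum_eq M 0 b τ]
  have e1 : ∀ n : ℤ, 1 / (((((0 : ℤ) : ℂ) * τ + b.val) / M) + n) ^ 3 =
      1 / ((((b.val : ℝ) / M : ℝ) : ℂ) + n) ^ 3 := by
    intro n
    push_cast
    simp
  rw [tsum_congr e1, H]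
  rw [map_div₀, map_mul, map_pow, map_add, map_sub, map_one, iota_zpw]
  have e2 : 2 * π * I * (((b.val : ℝ) / M : ℝ) : ℂ) = 2 * π * I * (b.val : ℂ) / M := by
    push_cast
    ring
  rw [e2]
  unfold C3' C3
  field_simp

end Fermat.Agent.S48.BB.P
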