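/-
S48 (Deligne-Serre), block BB, sub-block P.  TASK BB-P-8.   Sub-architect: helper297.
The statements `hasSum_gv`, `hasTExp_gv` are FROZEN interfaces.  Proved by helper215.

`eisSet_vecSet_eq_rows`, then `rowSum_pos`, `rowSum_neg`, `rowSum_zero`; `hasSum_regroup2` is applied to the two halves
`e1`, `e2` of the coefficients separately and the results are subtracted.
-/
import Fermat.Agent.S48.BB.P.Row
import Fermat.Agent.S48.BB.P.Regroup
import Fermat.Agent.S48.BB.P.Split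
import Fermat.Agent.S48.BB.P.OfNat

set_option autoImplicit false

noncomputable section

namespace Fermat.Agent.S48.BB.P

open UpperHalfPlane hiding I
open Complex ModularForm EisensteinSeries ModularCurve Matrix CongruenceSubgroup
open Fermat.Agent.S24 Fermat.Agent.S24.B Fermat.Agent.GAL.Mult Fermat.Agent.S48.IS
open scoped Real MatrixGroups Manifold

local notation "𝕢" => Function.Periodic.qParam

namespace GvExp

theorem norm_iota_zpw (M : ℕ) [NeZero M] (a : ZMod M) : ‖iota (zpw M a)‖ = 1 := by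
  rw [iota_zpw]
  have h : (2 * π * I * a.val / M : ℂ) = ((2 * π * a.val / M : ℝ) : ℂ) * I := by
    push_cast; ring
  rw [h, Complex.norm_exp_ofReal_mul_I]

/-- the first half of the coefficients -/
def e1 (M : ℕ) [NeZero M] (v : Fin 2 → ZMod M) (c r : ℕ) : ℂ :=
  if (c : ZMod M) = v 0 then iota (zpw M ((r : ZMod M) * v 1)) else 0

/-- the second half of the coefficients -/
def e2 (M : ℕ) [NeZero M] (v : Fin 2 → ZMod M) (c r : ℕ) : ℂ :=
  if (c : ZMod M) = -v 0 then iota (zpw M (-((r : ZMod M) * v 1))) else 0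

theorem norm_e1_le (M : ℕ) [NeZero M] (v : Fin 2 → ZMod M) (c r : ℕ) : ‖e1 M v c r‖ ≤ 1 := by
  unfold e1
  split_ifs
  · exact (norm_iota_zpw M _).le
  · simp

theorem norm_e2_le (M : ℕ) [NeZero M] (v : Fin 2 → ZMod M) (c r : ℕ) : ‖e2 M v c r‖ ≤ 1 := by
  unfold e2
  split_ifs
  · exact (norm_iota_zpw M _).le
  · simp

theorem C3'_ne_zero (M : ℕ) [NeZero M] : C3' M ≠ 0 := by
  unfold C3'
  have hM : (M : ℂ) ≠ 0 := Nat.cast_ne_zero.2 (NeZero.ne M)
  have hpi : (π : ℂ) ≠ 0 := by exact_mod_cast Real.pi_ne_zero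
  refine div_ne_zero (pow_ne_zero _ ?_) (mul_ne_zero two_ne_zero (pow_ne_zero _ hM))
  exact mul_ne_zero (mul_ne_zero (by norm_num) hpi) Complex.I_ne_zero

theorem iota_gCoeff_pos (M : ℕ) [NeZero M] (v : Fin 2 → ZMod M) (m : ℕ) (hm : m ≠ 0) :
    iota (gCoeff M v m) =
      (∑ c ∈ m.divisors, e1 M v c (m / c) * ((m / c : ℕ) : ℂ) ^ 2) -
        ∑ c ∈ m.divisors, e2 M v c (m / c) * ((m / c : ℕ) : ℂ) ^ 2 := by
  unfold gCoeff
  rw [if_neg hm, map_sum, ← Finset.sum_sub_distrib]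
  refine Finset.sum_congr rfl fun c _ => ?_
  rw [map_sub]
  congr 1
  · unfold e1
    split_ifs
    · rw [map_mul, map_pow, map_natCast, mul_comm]
    · simp
  · unfold e2
    split_ifs
    · rw [map_mul, map_pow, map_natCast, mul_comm]
    · simp

end GvExp

open GvExp in
theorem hasSum_gv (M : ℕ) [NeZero M] (v : Fin 2 → ZMod M) (hv : v ≠ 0) (τ : ℍ) :
    HasSum (fun n : ℕ => iota (gCoeff M v n) * 𝕢 M τ ^ n) (gv M v τ) := by
  have hM : (0 : ℝ) < M := Nat.cast_pos.2 (Nat.pos_of_ne_zero (NeZero.ne M))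
  have hx : ‖𝕢 M τ‖ < 1 := Function.Periodic.norm_qParam_lt_one hM τ.im_pos
  set x : ℂ := 𝕢 M τ with hxdef
  obtain ⟨hs1, hr1⟩ := hasSum_regroup2 (e1 M v) (norm_e1_le M v) hx
  obtain ⟨hs2, hr2⟩ := hasSum_regroup2 (e2 M v) (norm_e2_le M v) hx
  set S1 : ℂ := ∑' c : ℕ+, ∑' r : ℕ+, e1 M v c r * (r : ℂ) ^ 2 * x ^ (c * r : ℕ) with hS1
  set S2 : ℂ := ∑' c : ℕ+, ∑' r : ℕ+, e2 M v c r * (r : ℂ) ^ 2 * x ^ (c * r : ℕ) with hS2
  have hC := C3'_ne_zero M
  -- the value
  have hval : gv M v τ = (S1 - S2) + iota (gCoeff M v 0) * x ^ 0 := by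
    unfold gv
    rw [eisSet_vecSet_eq_rows, div_eq_iff hC]
    have h0 : (if v 0 = 0 then rowSum M 0 (v 1) τ else 0) = iota (gCoeff M v 0) * x ^ 0 * C3' M := by
      unfold gCoeff kap
      rw [if_pos rfl, pow_zero, mul_one]
      split_ifs with h
      · have hv1 : v 1 ≠ 0 := by
          intro h1
          apply hv
          funext i
          fin_cases i
          · exact h
          · exact h1
        rw [rowSum_zero M (v 1) hv1, mul_comm]
      · simp
    have hA : ∀ c : ℕ+, (if ((c : ℕ) : ZMod M) = v 0 then rowSum M ((c : ℕ) : ℤ) (v 1) τ else 0) =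
        C3' M * ∑' r : ℕ+, e1 M v c r * (r : ℂ) ^ 2 * x ^ (c * r : ℕ) := by
      intro c
      unfold e1
      split_ifs with h
      · have := rowSum_pos M c (v 1) τ
        rw [this]
        congr 1
        refine tsum_congr fun r => ?_
        ring
      · simp
    have hB : ∀ c : ℕ+, (if ((c : ℕ) : ZMod M) = -v 0 then rowSum M (-((c : ℕ) : ℤ)) (v 1) τ else 0) =
        -(C3' M * ∑' r : ℕ+, e2 M v c r * (r : ℂ) ^ 2 * x ^ (c * r : ℕ)) := by
      intro c
      unfold e2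
      split_ifs with h
      · rw [rowSum_neg, rowSum_pos M c (-(v 1)) τ]
        congr 2
        refine tsum_congr fun r => ?_
        rw [mul_neg]
        ring
      · simp
    have hsum : ∑' c : ℕ+, ((if ((c : ℕ) : ZMod M) = v 0 then rowSum M ((c : ℕ) : ℤ) (v 1) τ else 0) +
        (if ((c : ℕ) : ZMod M) = -v 0 then rowSum M (-((c : ℕ) : ℤ)) (v 1) τ else 0)) =
        (S1 - S2) * C3' M := by
      have h1 : ∀ c : ℕ+, ((if ((c : ℕ) : ZMod M) = v 0 then rowSum M ((c : ℕ) : ℤ) (v 1) τ else 0) +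
          (if ((c : ℕ) : ZMod M) = -v 0 then rowSum M (-((c : ℕ) : ℤ)) (v 1) τ else 0)) =
          C3' M * ((∑' r : ℕ+, e1 M v c r * (r : ℂ) ^ 2 * x ^ (c * r : ℕ)) -
            ∑' r : ℕ+, e2 M v c r * (r : ℂ) ^ 2 * x ^ (c * r : ℕ)) := by
        intro c
        rw [hA, hB]
        ring
      rw [tsum_congr h1, tsum_mul_left, Summable.tsum_sub hs1.prod hs2.prod, mul_comm]
    rw [h0, hsum]
    ring
  rw [hval]
  refine hasSum_pnat_iff.mp ?_
  have h3 := hr1.sub hr2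
  have h4 : (fun m : ℕ+ => iota (gCoeff M v (m : ℕ)) * x ^ (m : ℕ)) = fun m : ℕ+ =>
      (∑ c ∈ (m : ℕ).divisors, e1 M v c ((m : ℕ) / c) * (((m : ℕ) / c : ℕ) : ℂ) ^ 2) * x ^ (m : ℕ) -
        (∑ c ∈ (m : ℕ).divisors, e2 M v c ((m : ℕ) / c) * (((m : ℕ) / c : ℕ) : ℂ) ^ 2) *
          x ^ (m : ℕ) := by
    funext m
    rw [iota_gCoeff_pos M v m m.ne_zero, sub_mul]
  rw [h4]
  exact h3

/-- **(P-A)** -/
theorem hasTExp_gv (M : ℕ) [NeZero M] (v : Fin 2 → ZMod M) (hv : v ≠ 0) :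
    HasTExp M (gv M v) (HahnSeries.ofPowerSeries ℤ Kbar (PowerSeries.mk (gCoeff M v))) :=
  hasTExp_of_hasSum_nat (hasSum_gv M v hv)

end Fermat.Agent.S48.BB.P
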