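/-
S48 (Deligne-Serre), block BB, sub-block P.  TASK BB-P-3.   Sub-architect: helper297.
The `t`-expansion of `1 / Δ` (proofs: helper267).
-/
import Fermat.Agent.S48.BB.P.Defs
import Fermat.Agent.S24.Analytic.JExp

set_option autoImplicit false

noncomputable section

namespace Fermat.Agent.S48.BB.P

open UpperHalfPlane hiding I
open Complex ModularForm EisensteinSeries ModularCurve Matrix CongruenceSubgroup
open Fermat.Agent.S24 Fermat.Agent.S24.B Fermat.Agent.GAL.Mult Fermat.Agent.S48.IS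
open scoped Real MatrixGroups Manifold

local notation "𝕢" => Function.Periodic.qParam

namespace InvDelta

open Fermat.Agent.Lib.JExpansion

theorem coeff_natCast_sub_one (m : ℕ) :
    (HahnSeries.single (-1 : ℤ) (1 : ℚ) * HahnSeries.ofPowerSeries ℤ ℚ etaInvQ).coeff
      ((m : ℤ) - 1) = ((PowerSeries.coeff m dedekindEtaUnitInv : ℤ) : ℚ) := by
  rw [sub_eq_add_neg, HahnSeries.coeff_single_mul_add, one_mul,
    HahnSeries.ofPowerSeries_apply_coeff, etaInvQ, PowerSeries.coeff_map, eq_intCast]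

theorem coeff_of_lt {k : ℤ} (hk : k < -1) :
    (HahnSeries.single (-1 : ℤ) (1 : ℚ) * HahnSeries.ofPowerSeries ℤ ℚ etaInvQ).coeff k = 0 := by
  have h : k = (k + 1) + (-1) := by ring
  rw [h, HahnSeries.coeff_single_mul_add, one_mul, HahnSeries.ofPowerSeries_apply]
  apply HahnSeries.embDomain_of_notMem_range
  rintro ⟨n, hn⟩
  have hn' : (n : ℤ) = k + 1 := hn
  omega

theorem hasSum_inv_discriminant (τ : ℍ) :
    HasSum (fun n : ℤ =>
      (((HahnSeries.single (-1 : ℤ) (1 : ℚ) * HahnSeries.ofPowerSeries ℤ ℚ etaInvQ).coeff n : ℚ) : ℂ)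
        * 𝕢 1 τ ^ n) (discriminant τ)⁻¹ := by
  have hg : Function.Injective (fun m : ℕ => (m : ℤ) - 1) := fun a b h => by
    simpa using h
  rw [← hg.hasSum_iff]
  · have h := (ev_eulerFun_inv (norm_q_lt_one τ)).mul_left (𝕢 1 τ)⁻¹
    have hv : (𝕢 1 τ)⁻¹ * (eulerFun (𝕢 1 τ) ^ 24)⁻¹ = (discriminant τ)⁻¹ := by
      rw [discriminant_eq, mul_inv]
    rw [hv] at h
    refine h.congr_fun fun m => ?_
    simp only [Function.comp_apply]
    rw [coeff_natCast_sub_one, zpow_sub_one₀ (q_ne_zero τ), zpow_natCast]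
    simp only [toC, PowerSeries.coeff_map, eq_intCast, Rat.cast_intCast]
    ring
  · intro x hx
    have hlt : x < -1 := by
      by_contra hge
      rw [not_lt] at hge
      exact hx ⟨(x + 1).toNat, by
        show (((x + 1).toNat : ℕ) : ℤ) - 1 = x
        rw [Int.toNat_of_nonneg (by omega)]; ring⟩
    rw [coeff_of_lt hlt]
    simp

end InvDelta

theorem hasTExp_inv_discriminant :
    HasTExp 1 (fun τ => (discriminant τ)⁻¹)
      (coeffEmb Kbar (HahnSeries.single (-1 : ℤ) 1 * HahnSeries.ofPowerSeries ℤ ℚ etaInvQ)) := by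
  intro τ
  refine (InvDelta.hasSum_inv_discriminant τ).congr_fun fun n => ?_
  rw [coeffEmb_coeff, iota_algebraMap_rat, Nat.cast_one]

end Fermat.Agent.S48.BB.P
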