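/-
S48 (Deligne-Serre), block BB, sub-block P.  TASK BB-P-1.   Sub-architect: helper297.
Proved by helper70 (the statements are FROZEN).
Helper lemmas: same file, namespace `Fermat.Agent.S48.BB.P.Level`.

`𝕢 M τ ^ (M * n) = 𝕢 1 τ ^ n`.  Copy the proof of `S24.B.hasTExp_tri` (S24/B/TExpTri.lean) or of
`S24.B.hasTExp_jfun_level` (S24/B/LevelOne.lean): `Function.Injective.hasSum_iff` for `n ↦ M * n`,
`qExpand_coeff_mul`, `qExpand_coeff_of_not_dvd`.
-/
import Fermat.Agent.S48.BB.P.Defs

set_option autoImplicit false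

noncomputable section

namespace Fermat.Agent.S48.BB.P

open UpperHalfPlane hiding I
open Complex ModularForm EisensteinSeries ModularCurve Matrix CongruenceSubgroup
open Fermat.Agent.S24 Fermat.Agent.S24.B Fermat.Agent.GAL.Mult Fermat.Agent.S48.IS
open scoped Real MatrixGroups Manifold

local notation "𝕢" => Function.Periodic.qParam

theorem hasTExp_level_one {f : ℍ → ℂ} {s : LaurentSeries Kbar} (h : HasTExp 1 f s) (M : ℕ)
    [NeZero M] : HasTExp M f (qExpand Kbar M s) := by
  have h1 := hasTExp_tri (N := M) h 1 0 1 one_pos one_pos M (by ring) 1 (by simp)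
  rw [twist_one] at h1
  have h2 : (fun τ => f (triMat 1 0 1 one_pos one_pos • τ)) = f := by
    funext τ
    congr 1
    apply UpperHalfPlane.ext
    rw [coe_triMat_smul]
    simp
  rwa [h2] at h1

end Fermat.Agent.S48.BB.P
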