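/-
S48 (Deligne-Serre), block BB, sub-block P.  TASK BB-P-10.   Sub-architect: helper297.
Proofs: helper183.
Helper lemmas: same file, namespace `Fermat.Agent.S48.BB.P.Slash`.

`S48.IS.eisSet_slash` + `ModularForm.SL_slash_apply` give
`eisSet S 3 (γ • τ) = denom γ τ ^ 3 * eisSet (S γ) 3 τ`; `Δ (γ • τ) = denom γ τ ^ 12 * Δ τ` as in `S24.jfun_smul`
(S24/Analytic/JBasic.lean).  `ua_smul_Gamma0`: `S48.IS.image_colSet`.
-/
import Fermat.Agent.S48.BB.P.Defs

set_option autoImplicit false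

noncomputable section

namespace Fermat.Agent.S48.BB.P

open UpperHalfPlane hiding I
open Complex ModularForm EisensteinSeries ModularCurve Matrix CongruenceSubgroup
open Fermat.Agent.S24 Fermat.Agent.S24.B Fermat.Agent.GAL.Mult Fermat.Agent.S48.IS
open scoped Real MatrixGroups Manifold

local notation "𝕢" => Function.Periodic.qParam

namespace Slash

theorem eisSet_smul (S : Set (Fin 2 → ℤ)) (γ : SL(2, ℤ)) (τ : ℍ) :
    eisSet S 3 (γ • τ) =
      denom γ τ ^ 3 * eisSet ((fun x => x ᵥ* (γ : Matrix (Fin 2) (Fin 2) ℤ)) '' S) 3 τ := by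
  have h := congrFun (eisSet_slash S 3 γ) τ
  rw [ModularForm.SL_slash_apply] at h
  have hd : denom γ τ ≠ 0 := denom_ne_zero _ _
  rw [← h, _root_.zpow_neg]
  have e3 : denom γ τ ^ (3 : ℤ) = denom γ τ ^ 3 := by norm_cast
  rw [e3]
  field_simp

theorem discriminant_smul (γ : SL(2, ℤ)) (τ : ℍ) :
    discriminant (γ • τ) = denom γ τ ^ 12 * discriminant τ := by
  have h12 : CuspForm.discriminant (γ • τ) = (denom γ τ) ^ (12 : ℤ) * CuspForm.discriminant τ :=
    SlashInvariantForm.slash_action_eqn'' (Γ := 𝒮ℒ) CuspForm.discriminant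
      (γ := Matrix.SpecialLinearGroup.mapGL ℝ γ) (MonoidHom.mem_range.mpr ⟨γ, rfl⟩) τ
  have h12' : discriminant (γ • τ) = (denom γ τ) ^ (12 : ℤ) * discriminant τ := h12
  rw [h12']
  norm_cast

end Slash

theorem ua_smul_eq (M : ℕ) (a : ZMod M) (γ : SL(2, ℤ)) (τ : ℍ) :
    ua M a (γ • τ) =
      (eisSet ((fun x => x ᵥ* (γ : Matrix (Fin 2) (Fin 2) ℤ)) '' colSet M a) 3 τ / C3) ^ 4 /
        discriminant τ := by
  have hd : denom γ τ ≠ 0 := denom_ne_zero _ _
  have hΔ : discriminant τ ≠ 0 := discriminant_ne_zero τ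
  unfold ua ta
  rw [Slash.eisSet_smul, Slash.discriminant_smul]
  generalize denom γ τ = d at *
  generalize discriminant τ = D at *
  generalize eisSet _ 3 τ = e at *
  rw [mul_div_assoc, mul_pow, ← pow_mul]
  norm_num
  rw [mul_div_mul_left _ _ (pow_ne_zero 12 hd)]

/-- **(P-C)** -/
theorem ua_smul_Gamma0 (M : ℕ) (a : ZMod M) (γ : SL(2, ℤ)) (hγ : γ ∈ Gamma0 M) (τ : ℍ) :
    ua M a (γ • τ) = ua M (a * ((γ 0 0 : ℤ) : ZMod M)) τ := by
  rw [ua_smul_eq, image_colSet M a γ hγ]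
  rfl

end Fermat.Agent.S48.BB.P
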