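/-
S48 (Deligne-Serre), block BB, sub-block P.  TASK BB-P-13.   Sub-architect: helper297.
Helper lemmas: same file, namespace `Fermat.Agent.S48.BB.P.Adm`.

`a = 0`: `ua_zero`, `IsAdm.const 0`.  `a ≠ 0`: `mdiff := mdiff_ua`.  For `γ`: by `ua_smul_eq`, `colSet_eq_redSet`, `image_redSet`:
`ua M a (γ • τ) = (eisSet (redSet M S_γ) 3 τ / C3)^4 / Δ τ` with `S_γ = {v | v 0 = a} γ` (a `Set` of a `Fintype`: use
`Set.toFinset`/`Set.Finite.toFinset`), `0 ∉ S_γ` (`a ≠ 0`).  `eisSet_redSet`, `C3 = M³ C3' M`: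
`eisSet (redSet M S) 3 τ / C3 = iota (M³)⁻¹ * ∑_{v ∈ S} gv M v τ`; `hasTExp_gv`, finite sums (`HasTExp.add`, induction),
`HasTExp.const`/`mul`, `.pow 4`, times `hasTExp_level_one hasTExp_inv_discriminant M`.
`fin`: `γ ↦ ua M a (γ • ·)` factors through `γ ↦ S_γ ∈ Set (Fin 2 → ZMod M)`, a finite type (`Set.finite_range`,
`Set.Finite.subset`).
-/
import Fermat.Agent.S48.BB.P.GvExp
import Fermat.Agent.S48.BB.P.Decomp
import Fermat.Agent.S48.BB.P.Slash
import Fermat.Agent.S48.BB.P.Zero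
import Fermat.Agent.S48.BB.P.InvDelta
import Fermat.Agent.S48.BB.P.Level

set_option autoImplicit false

noncomputable section

namespace Fermat.Agent.S48.BB.P

open UpperHalfPlane hiding I
open Complex ModularForm EisensteinSeries ModularCurve Matrix CongruenceSubgroup
open Fermat.Agent.S24 Fermat.Agent.S24.B Fermat.Agent.GAL.Mult Fermat.Agent.S48.IS
open scoped Real MatrixGroups Manifold

local notation "𝕢" => Function.Periodic.qParam

namespace Adm

/-- The set `S_γ = {v | v 0 = a} γ`. -/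
def Sg (M : ℕ) (a : ZMod M) (γ : SL(2, ℤ)) : Set (Fin 2 → ZMod M) :=
  (fun v => v ᵥ* ((γ : Matrix (Fin 2) (Fin 2) ℤ).map (Int.cast : ℤ → ZMod M))) '' {v | v 0 = a}

/-- The function attached to a subset of `(ℤ/M)²`. -/
def uS (M : ℕ) (S : Set (Fin 2 → ZMod M)) (τ : ℍ) : ℂ :=
  (eisSet (redSet M S) 3 τ / C3) ^ 4 / discriminant τ

theorem ua_smul (M : ℕ) (a : ZMod M) (γ : SL(2, ℤ)) (τ : ℍ) :
    ua M a (γ • τ) = uS M (Sg M a γ) τ := by
  rw [ua_smul_eq, colSet_eq_redSet, image_redSet]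
  rfl

theorem map_mul_map_inv (M : ℕ) (γ : SL(2, ℤ)) :
    ((γ : Matrix (Fin 2) (Fin 2) ℤ).map (Int.cast : ℤ → ZMod M)) *
      (((γ⁻¹ : SL(2, ℤ)) : Matrix (Fin 2) (Fin 2) ℤ).map (Int.cast : ℤ → ZMod M)) = 1 := by
  have h1 : ((γ : Matrix (Fin 2) (Fin 2) ℤ) * ((γ⁻¹ : SL(2, ℤ)) : Matrix (Fin 2) (Fin 2) ℤ)) = 1 := by
    rw [← Matrix.SpecialLinearGroup.coe_mul, mul_inv_cancel, Matrix.SpecialLinearGroup.coe_one]
  have h2 := congrArg (fun A : Matrix (Fin 2) (Fin 2) ℤ => A.map (Int.castRingHom (ZMod M))) h1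
  simp only [Matrix.map_mul] at h2
  rw [Matrix.map_one _ (map_zero _) (map_one _)] at h2
  exact h2

theorem zero_notMem_Sg (M : ℕ) {a : ZMod M} (ha : a ≠ 0) (γ : SL(2, ℤ)) :
    (0 : Fin 2 → ZMod M) ∉ Sg M a γ := by
  rintro ⟨v, hv, h0⟩
  apply ha
  have h1 : v = 0 := by
    have h2 := congrArg (fun w => w ᵥ*
      (((γ⁻¹ : SL(2, ℤ)) : Matrix (Fin 2) (Fin 2) ℤ).map (Int.cast : ℤ → ZMod M))) h0
    simp only [Matrix.vecMul_vecMul, map_mul_map_inv, Matrix.vecMul_one, Matrix.zero_vecMul] at h2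
    exact h2
  have hv' : v 0 = a := hv
  rw [← hv', h1]
  rfl

theorem hasTExp_zero (N : ℕ) : HasTExp N (fun _ => 0) 0 := by
  have := HasTExp.const (N := N) 0
  rw [map_zero, map_zero] at this
  exact this

theorem hasTExp_sum {N : ℕ} {ι : Type*} (s : Finset ι) (f : ι → ℍ → ℂ)
    (S : ι → LaurentSeries Kbar) (h : ∀ i ∈ s, HasTExp N (f i) (S i)) :
    HasTExp N (fun τ => ∑ i ∈ s, f i τ) (∑ i ∈ s, S i) := by
  classical
  induction s using Finset.induction_on with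
  | empty => simpa using hasTExp_zero N
  | insert i s hi ih =>
    have h1 := (h i (Finset.mem_insert_self i s)).add
      (ih fun j hj => h j (Finset.mem_insert_of_mem hj))
    rw [Finset.sum_insert hi]
    have h2 : (fun τ => ∑ j ∈ insert i s, f j τ) = f i + fun τ => ∑ j ∈ s, f j τ := by
      funext τ
      rw [Finset.sum_insert hi]
      rfl
    rw [h2]
    exact h1

theorem C3_ne_zero : C3 ≠ 0 := by
  unfold C3
  have hpi : (π : ℂ) ≠ 0 := by exact_mod_cast Real.pi_ne_zero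
  have hI : (I : ℂ) ≠ 0 := I_ne_zero
  have h2 : (-2 : ℂ) ≠ 0 := by norm_num
  exact div_ne_zero (pow_ne_zero _ (mul_ne_zero (mul_ne_zero h2 hpi) hI)) two_ne_zero

theorem eisSet_vecSet_eq (M : ℕ) [NeZero M] (v : Fin 2 → ZMod M) (τ : ℍ) :
    eisSet (vecSet M v) 3 τ / C3 = iota (((M : Kbar) ^ 3)⁻¹) * gv M v τ := by
  have hM : (M : ℂ) ≠ 0 := by exact_mod_cast NeZero.ne M
  have hC := C3_ne_zero
  have h1 : C3' M = C3 / (M : ℂ) ^ 3 := by
    unfold C3' C3
    field_simp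
  rw [gv, h1, map_inv₀, map_pow, map_natCast]
  field_simp

theorem eisSet_redSet_div (M : ℕ) [NeZero M] (S : Finset (Fin 2 → ZMod M)) (τ : ℍ) :
    eisSet (redSet M (S : Set (Fin 2 → ZMod M))) 3 τ / C3 =
      iota (((M : Kbar) ^ 3)⁻¹) * ∑ v ∈ S, gv M v τ := by
  rw [eisSet_redSet, Finset.sum_div, Finset.mul_sum]
  exact Finset.sum_congr rfl fun v _ => eisSet_vecSet_eq M v τ

theorem exists_hasTExp_uS (M : ℕ) [NeZero M] (S : Set (Fin 2 → ZMod M))
    (h0 : (0 : Fin 2 → ZMod M) ∉ S) : ∃ s : LaurentSeries Kbar, HasTExp M (uS M S) s := by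
  classical
  have hfin : S.Finite := Set.toFinite S
  have hS : S = ((hfin.toFinset : Finset (Fin 2 → ZMod M)) : Set (Fin 2 → ZMod M)) :=
    hfin.coe_toFinset.symm
  have h1 := hasTExp_sum (N := M) hfin.toFinset (fun v => gv M v)
    (fun v => HahnSeries.ofPowerSeries ℤ Kbar (PowerSeries.mk (gCoeff M v))) (fun v hv =>
      hasTExp_gv M v (by
        rintro rfl
        exact h0 (hfin.mem_toFinset.mp hv)))
  have h2 := (((HasTExp.const (N := M) (((M : Kbar) ^ 3)⁻¹)).mul h1).pow 4).mul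
    (hasTExp_level_one hasTExp_inv_discriminant M)
  have h3 : uS M S = ((fun _ => iota (((M : Kbar) ^ 3)⁻¹)) *
      fun τ => ∑ i ∈ hfin.toFinset, gv M i τ) ^ 4 * fun τ => (discriminant τ)⁻¹ := by
    funext τ
    show (eisSet (redSet M S) 3 τ / C3) ^ 4 / discriminant τ =
      (iota (((M : Kbar) ^ 3)⁻¹) * ∑ v ∈ hfin.toFinset, gv M v τ) ^ 4 * (discriminant τ)⁻¹
    rw [← eisSet_redSet_div, ← hS, div_eq_mul_inv]
  rw [h3]
  exact ⟨_, h2⟩

end Adm

/-- **(P-B)**, first half -/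
theorem isAdm_ua (M : ℕ) [NeZero M] (a : ZMod M) : IsAdm M (ua M a) := by
  rcases eq_or_ne a 0 with rfl | ha
  · rw [ua_zero]
    have h := IsAdm.const (N := M) 0
    rw [map_zero] at h
    exact h
  · refine ⟨mdiff_ua M a, fun γ => ?_, ?_⟩
    · obtain ⟨s, hs⟩ := Adm.exists_hasTExp_uS M (Adm.Sg M a γ) (Adm.zero_notMem_Sg M ha γ)
      refine ⟨s, ?_⟩
      have : (fun τ => ua M a (γ • τ)) = Adm.uS M (Adm.Sg M a γ) := by
        funext τ
        exact Adm.ua_smul M a γ τ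
      rw [this]
      exact hs
    · refine (Set.finite_range (Adm.uS M)).subset ?_
      rintro _ ⟨γ, rfl⟩
      refine ⟨Adm.Sg M a γ, ?_⟩
      funext τ
      exact (Adm.ua_smul M a γ τ).symm

end Fermat.Agent.S48.BB.P
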