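/-
S48 (Deligne-Serre), block BB, sub-block P.  TASK BB-P-11.   Sub-architect: helper297.
Proofs: helper264.  The statements are FROZEN (verbatim from the stub).
Helper lemmas: same file, namespace `Fermat.Agent.S48.BB.P.Zero`.

`ua_zero`: `colSet M 0` is stable under `x ↦ -x` and `eisSummand 3 (-x) τ = - eisSummand 3 x τ`, so the sum `s` satisfies
`s = -s` (`Equiv.tsum_eq` on the subtype, or `tsum_subtype` + `Equiv.neg`).  `uQ_zero`: `cB M 0 n = 0` (`neg_zero`, `sub_self`),
so `tP M 0 = 0`.  `mdiff_ua`: `S48.IS.mdiff_eisSet`, `CuspForm.discriminant.holo'`, `discriminant_ne_zero`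
(see `S24.mdiff_jfun`).
-/
import Fermat.Agent.S48.BB.P.Defs

set_option autoImplicit false

noncomputable section

namespace Fermat.Agent.S48.BB.P

open UpperHalfPlane hiding I
open Complex ModularForm EisensteinSeries ModularCurve Matrix CongruenceSubgroup
open Fermat.Agent.S24 Fermat.Agent.S24.B Fermat.Agent.GAL.Mult Fermat.Agent.S48.IS
open scoped Real MatrixGroups Manifold

local notation "𝕢" => Function.Periodic.qParam

namespace Zero

theorem eisSummand_three_neg (x : Fin 2 → ℤ) (τ : ℍ) :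
    eisSummand 3 (-x) τ = - eisSummand 3 x τ := by
  simp only [eisSummand, Pi.neg_apply, Int.cast_neg]
  have h : (-(x 0 : ℂ) * (τ : ℂ) + -(x 1 : ℂ)) = -((x 0 : ℂ) * (τ : ℂ) + (x 1 : ℂ)) := by ring
  rw [h, _root_.zpow_neg, _root_.zpow_neg, neg_inv]
  congr 1
  have h3 : ∀ y : ℂ, y ^ (3 : ℤ) = y ^ 3 := fun y => by norm_cast
  rw [h3, h3]
  ring

theorem eisSet_colSet_zero (M : ℕ) (τ : ℍ) : eisSet (colSet M 0) 3 τ = 0 := by
  have hind : ∀ x : Fin 2 → ℤ, (colSet M 0).indicator (fun v => eisSummand 3 v τ) (-x) =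
      - (colSet M 0).indicator (fun v => eisSummand 3 v τ) x := by
    intro x
    have hiff : -x ∈ colSet M 0 ↔ x ∈ colSet M 0 := by
      simp [colSet]
    by_cases hx : x ∈ colSet M 0
    · rw [Set.indicator_of_mem hx, Set.indicator_of_mem (hiff.2 hx), eisSummand_three_neg]
    · rw [Set.indicator_of_notMem hx, Set.indicator_of_notMem (fun h => hx (hiff.1 h)), neg_zero]
  have h1 : eisSet (colSet M 0) 3 τ = - eisSet (colSet M 0) 3 τ := by
    unfold eisSet
    rw [tsum_subtype (colSet M 0) (fun v => eisSummand 3 v τ)]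
    conv_lhs => rw [← (Equiv.neg (Fin 2 → ℤ)).tsum_eq]
    rw [← tsum_neg]
    exact tsum_congr hind
  have h2 : (2 : ℂ) * eisSet (colSet M 0) 3 τ = 0 := by
    linear_combination h1
  exact (mul_eq_zero.1 h2).resolve_left two_ne_zero

theorem cB_zero (M n : ℕ) : cB M 0 n = 0 := by
  unfold cB
  refine Finset.sum_eq_zero fun c _ => ?_
  rw [neg_zero, sub_self]

end Zero

theorem ua_zero (M : ℕ) : ua M 0 = 0 := by
  funext τ
  simp only [ua, ta, Zero.eisSet_colSet_zero, zero_div, Pi.zero_apply]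
  norm_num

theorem uQ_zero (M : ℕ) : uQ M 0 = 0 := by
  have h : tP M 0 = 0 := by
    ext n
    simp [tP, Zero.cB_zero]
  unfold uQ
  rw [h]
  simp

theorem mdiff_ua (M : ℕ) (a : ZMod M) : MDiff (ua M a) := by
  have h1 : MDiff (eisSet (colSet M a) 3) := mdiff_eisSet le_rfl _
  have h2 : MDiff (fun τ : ℍ => eisSet (colSet M a) 3 τ * C3⁻¹) := h1.mul mdifferentiable_const
  have h3 : MDiff (ta M a) := by
    have : ta M a = fun τ : ℍ => eisSet (colSet M a) 3 τ * C3⁻¹ := by
      funext τ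
      rw [ta, div_eq_mul_inv]
    rw [this]
    exact h2
  have h4 : MDiff (fun τ : ℍ => ta M a τ ^ 4) := h3.pow 4
  exact h4.div CuspForm.discriminant.holo' discriminant_ne_zero

end Fermat.Agent.S48.BB.P
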