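/-
S48 (Deligne-Serre), block BB, sub-block P.  TASK BB-P-12.   Sub-architect: helper297.  Proof: helper127.

`a = 0`: `ua_zero`, `uQ_zero`, `map_zero`.  `a ≠ 0`: `S48.IS.hasSum_eisSet_colSet M a ha τ` divided by `C3` gives
`HasSum (fun n => (cB M a n : ℂ) * q^n) (ta M a τ)` (`cexp (2πiτ) = 𝕢 1 τ`), so by `hasTExp_of_hasSum_nat`
`HasTExp 1 (ta M a) (ofPowerSeries (mk fun n => (cB M a n : Kbar)))`; this series is
`coeffEmb Kbar (ofPowerSeries ℤ ℚ (tP M a))`.  `HasTExp.pow 4`, `HasTExp.mul` with `hasTExp_inv_discriminant`, ring hom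
properties of `coeffEmb` and `HahnSeries.ofPowerSeries`, then `hasTExp_level_one`.
-/
import Fermat.Agent.S48.BB.P.Level
import Fermat.Agent.S48.BB.P.OfNat
import Fermat.Agent.S48.BB.P.InvDelta
import Fermat.Agent.S48.BB.P.Zero
import Fermat.Prelude.Def_ModularCurve_X0ModL

set_option autoImplicit false

noncomputable section

namespace Fermat.Agent.S48.BB.P

open UpperHalfPlane hiding I
open Complex ModularForm EisensteinSeries ModularCurve Matrix CongruenceSubgroup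
open Fermat.Agent.S24 Fermat.Agent.S24.B Fermat.Agent.GAL.Mult Fermat.Agent.S48.IS
open scoped Real MatrixGroups Manifold

local notation "𝕢" => Function.Periodic.qParam

namespace AtInfty

theorem C3_ne_zero : C3 ≠ 0 := by
  unfold C3
  have hπ : (π : ℂ) ≠ 0 := by exact_mod_cast Real.pi_ne_zero
  have : (-2 * (π : ℂ) * I) ≠ 0 := by
    simp [hπ, I_ne_zero]
  exact div_ne_zero (pow_ne_zero _ this) two_ne_zero

theorem hasSum_ta (M : ℕ) [NeZero M] (a : ZMod M) (ha : a ≠ 0) (τ : ℍ) :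
    HasSum (fun n : ℕ => iota ((cB M a n : ℤ) : Kbar) * 𝕢 ((1 : ℕ) : ℝ) τ ^ n) (ta M a τ) := by
  have h := (hasSum_eisSet_colSet M a ha τ).div_const C3
  have e : cexp (2 * π * I * τ) = 𝕢 ((1 : ℕ) : ℝ) τ := by
    simp [Function.Periodic.qParam]
  rw [e] at h
  have e2 : (fun n : ℕ => iota ((cB M a n : ℤ) : Kbar) * 𝕢 ((1 : ℕ) : ℝ) τ ^ n) =
      fun i : ℕ => (-2 * π * I) ^ 3 / 2 * (cB M a i : ℂ) * 𝕢 ((1 : ℕ) : ℝ) τ ^ i / C3 := by
    funext n
    rw [map_intCast]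
    have h0 := C3_ne_zero
    unfold C3 at h0 ⊢
    field_simp
  rw [e2]
  exact h

theorem series_eq (M : ℕ) (a : ZMod M) :
    HahnSeries.ofPowerSeries ℤ Kbar (PowerSeries.mk fun n => ((cB M a n : ℤ) : Kbar)) =
      coeffEmb Kbar (HahnSeries.ofPowerSeries ℤ ℚ (tP M a)) := by
  rw [coeffEmb, coeffMap_ofPowerSeries]
  congr 1

theorem hasTExp_ta (M : ℕ) [NeZero M] (a : ZMod M) (ha : a ≠ 0) :
    HasTExp 1 (ta M a) (coeffEmb Kbar (HahnSeries.ofPowerSeries ℤ ℚ (tP M a))) := by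
  rw [← series_eq]
  exact hasTExp_of_hasSum_nat (hasSum_ta M a ha)

theorem hasTExp_ua_one (M : ℕ) [NeZero M] (a : ZMod M) :
    HasTExp 1 (ua M a) (coeffEmb Kbar (uQ M a)) := by
  by_cases ha : a = 0
  · subst ha
    rw [ua_zero, uQ_zero, map_zero]
    intro τ
    simp [hasSum_zero]
  · have h := ((hasTExp_ta M a ha).pow 4).mul hasTExp_inv_discriminant
    have e1 : ua M a = ta M a ^ 4 * fun τ => (discriminant τ)⁻¹ := by
      funext τ
      simp [ua, div_eq_mul_inv]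
    have e2 : coeffEmb Kbar (uQ M a) =
        coeffEmb Kbar (HahnSeries.ofPowerSeries ℤ ℚ (tP M a)) ^ 4 *
          coeffEmb Kbar (HahnSeries.single (-1 : ℤ) 1 * HahnSeries.ofPowerSeries ℤ ℚ etaInvQ) := by
      rw [uQ, ← map_pow, ← map_mul, map_mul (HahnSeries.ofPowerSeries ℤ ℚ), map_pow]
      congr 1
      ring
    rw [e1, e2]
    exact h

end AtInfty

/-- **(P-B)**, second half -/
theorem hasTExp_ua (M : ℕ) [NeZero M] (a : ZMod M) :
    HasTExp M (ua M a) (qExpand Kbar M (coeffEmb Kbar (uQ M a))) :=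
  hasTExp_level_one (AtInfty.hasTExp_ua_one M a) M

end Fermat.Agent.S48.BB.P
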