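/-
S48 (Deligne-Serre), block BB, sub-block P.  TASK BB-P-16.   Sub-architect: helper297.  Proofs: helper266.
The statements are FROZEN (kept verbatim).
Helper lemmas: same file, namespace `Fermat.Agent.S48.BB.P.CoeffIn`.

The Laurent series with all coefficients in a subring `R ⊆ ℚ̄` form a subring.
-/
import Fermat.Agent.S48.BB.P.Defs

set_option autoImplicit false

noncomputable section

namespace Fermat.Agent.S48.BB.P

open UpperHalfPlane hiding I
open Complex ModularForm EisensteinSeries ModularCurve Matrix CongruenceSubgroup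
open Fermat.Agent.S24 Fermat.Agent.S24.B Fermat.Agent.GAL.Mult Fermat.Agent.S48.IS
open scoped Real MatrixGroups Manifold

local notation "𝕢" => Function.Periodic.qParam

namespace CoeffIn

theorem ofPowerSeries_coeff_cases {S : Type*} [CommRing S] (p : PowerSeries S) (n : ℤ) :
    (∃ k : ℕ, (HahnSeries.ofPowerSeries ℤ S p).coeff n = PowerSeries.coeff k p) ∨
      (HahnSeries.ofPowerSeries ℤ S p).coeff n = 0 := by
  rcases le_or_gt 0 n with hn | hn
  · left
    obtain ⟨k, rfl⟩ := Int.eq_ofNat_of_zero_le hn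
    exact ⟨k, HahnSeries.ofPowerSeries_apply_coeff p k⟩
  · right
    rw [HahnSeries.ofPowerSeries_apply]
    refine HahnSeries.embDomain_of_notMem_range ?_
    rintro ⟨m, hm⟩
    have : (0 : ℤ) ≤ n := by rw [← hm]; exact Int.natCast_nonneg m
    omega

end CoeffIn

/-- The Laurent series all of whose coefficients lie in `R`. -/
def coeffSub (R : Subring Kbar) : Subring (LaurentSeries Kbar) where
  carrier := {s | ∀ n : ℤ, s.coeff n ∈ R}
  mul_mem' := by
    intro a b ha hb n
    rw [HahnSeries.coeff_mul]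
    exact R.sum_mem fun ij _ => R.mul_mem (ha _) (hb _)
  one_mem' := by
    intro n
    rw [HahnSeries.coeff_one]
    split_ifs
    · exact R.one_mem
    · exact R.zero_mem
  add_mem' := by
    intro a b ha hb n
    rw [HahnSeries.coeff_add]
    exact R.add_mem (ha n) (hb n)
  zero_mem' := by
    intro n
    rw [HahnSeries.coeff_zero]
    exact R.zero_mem
  neg_mem' := by
    intro a ha n
    rw [HahnSeries.coeff_neg]
    exact R.neg_mem (ha n)

theorem mem_coeffSub {R : Subring Kbar} {s : LaurentSeries Kbar} :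
    s ∈ coeffSub R ↔ ∀ n : ℤ, s.coeff n ∈ R := Iff.rfl

theorem C_mem_coeffSub {R : Subring Kbar} {c : Kbar} (hc : c ∈ R) :
    (HahnSeries.C c : LaurentSeries Kbar) ∈ coeffSub R := by
  intro n
  rw [HahnSeries.C_apply, HahnSeries.coeff_single]
  split_ifs
  · exact hc
  · exact R.zero_mem

theorem single_mem_coeffSub {R : Subring Kbar} (k : ℤ) {c : Kbar} (hc : c ∈ R) :
    (HahnSeries.single k c : LaurentSeries Kbar) ∈ coeffSub R := by
  intro n
  rw [HahnSeries.coeff_single]
  split_ifs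
  · exact hc
  · exact R.zero_mem

theorem ofPowerSeries_mem_coeffSub {R : Subring Kbar} {c : ℕ → Kbar} (hc : ∀ n, c n ∈ R) :
    HahnSeries.ofPowerSeries ℤ Kbar (PowerSeries.mk c) ∈ coeffSub R := by
  intro n
  rcases CoeffIn.ofPowerSeries_coeff_cases (PowerSeries.mk c) n with ⟨k, hk⟩ | h0
  · rw [hk, PowerSeries.coeff_mk]
    exact hc k
  · rw [h0]
    exact R.zero_mem

theorem qExpand_mem_coeffSub {R : Subring Kbar} (N : ℕ) [NeZero N] {s : LaurentSeries Kbar}
    (hs : s ∈ coeffSub R) : qExpand Kbar N s ∈ coeffSub R := by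
  intro n
  by_cases hn : (N : ℤ) ∣ n
  · obtain ⟨k, rfl⟩ := hn
    rw [qExpand_coeff_mul]
    exact hs k
  · rw [qExpand_coeff_of_not_dvd N s hn]
    exact R.zero_mem

theorem coeffEmb_mem_coeffSub (R : Subring Kbar) {s : LaurentSeries ℚ}
    (hs : ∀ n : ℤ, ∃ z : ℤ, s.coeff n = z) : coeffEmb Kbar s ∈ coeffSub R := by
  intro n
  obtain ⟨z, hz⟩ := hs n
  rw [coeffEmb_coeff, hz, map_intCast]
  exact intCast_mem R z

theorem invDelta_mem_coeffSub (R : Subring Kbar) :
    coeffEmb Kbar (HahnSeries.single (-1 : ℤ) 1 * HahnSeries.ofPowerSeries ℤ ℚ etaInvQ) ∈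
      coeffSub R := by
  refine coeffEmb_mem_coeffSub R fun n => ?_
  have e : n = (n + 1) + (-1 : ℤ) := by ring
  rw [e, HahnSeries.coeff_single_mul_add, one_mul]
  rcases CoeffIn.ofPowerSeries_coeff_cases etaInvQ (n + 1) with ⟨k, hk⟩ | h0
  · refine ⟨PowerSeries.coeff k dedekindEtaUnitInv, ?_⟩
    rw [hk, etaInvQ, PowerSeries.coeff_map]
    rfl
  · exact ⟨0, by rw [h0]; simp⟩

end Fermat.Agent.S48.BB.P
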