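/-
S48 (Deligne-Serre), block BB, sub-block P.  TASK BB-P-14.   Sub-architect: helper297.
STUB: the statements are FROZEN (keep them verbatim); the task owner replaces every unfinished proof.
Helper lemmas: same file, namespace `Fermat.Agent.S48.BB.P.LevelMul`.

`𝕢 (M * r) τ ^ (r * n) = 𝕢 M τ ^ n` (`Function.Periodic.qParam`, `← Complex.exp_int_mul`/`zpow_mul`, `push_cast`, `field_simp`).
Same proof as `hasTExp_level_one` (P/Level.lean) / `S24.B.hasTExp_jfun_level` (S24/B/LevelOne.lean):
`Function.Injective.hasSum_iff` for `n ↦ r * n`, `qExpand_coeff_mul`, `qExpand_coeff_of_not_dvd`.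
`isAdm_level_mul`: fields `mdiff`, `fin` unchanged, `texp` by `hasTExp_level_mul`.
-/
import Fermat.Agent.S48.BB.P.Defs

set_option autoImplicit false

noncomputable section

namespace Fermat.Agent.S48.BB.P

open UpperHalfPlane hiding I
open Complex ModularForm EisensteinSeries ModularCurve Matrix CongruenceSubgroup
open Fermat.Agent.S24 Fermat.Agent.S24.B Fermat.Agent.GAL.Mult Fermat.Agent.S48.IS
open scoped Real MatrixGroups Manifold

local notation "𝕢" => Function.Periodic.qParam

namespace LevelMul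

theorem qParam_pow (M r : ℕ) [NeZero r] (z : ℂ) :
    𝕢 ((M * r : ℕ) : ℝ) z ^ r = 𝕢 (M : ℝ) z := by
  rw [Function.Periodic.qParam, Function.Periodic.qParam, ← Complex.exp_nat_mul]
  congr 1
  have hr : (r : ℂ) ≠ 0 := by exact_mod_cast NeZero.ne r
  push_cast
  by_cases hM : (M : ℂ) = 0
  · simp [hM]
  · field_simp

end LevelMul

theorem hasTExp_level_mul {M : ℕ} [NeZero M] {f : ℍ → ℂ} {s : LaurentSeries Kbar} (h : HasTExp M f s)
    (r : ℕ) [NeZero r] : HasTExp (M * r) f (qExpand Kbar r s) := by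
  intro τ
  have hr : (r : ℤ) ≠ 0 := by exact_mod_cast NeZero.ne r
  have hinj : Function.Injective (fun n : ℤ => (r : ℤ) * n) := mul_right_injective₀ hr
  rw [← hinj.hasSum_iff]
  · convert h τ using 1
    funext n
    simp only [Function.comp_apply]
    rw [qExpand_coeff_mul, _root_.zpow_mul, zpow_natCast, LevelMul.qParam_pow]
  · intro n hn
    rw [qExpand_coeff_of_not_dvd r s (fun hdvd => hn ?_), map_zero, zero_mul]
    obtain ⟨m, rfl⟩ := hdvd
    exact ⟨m, rfl⟩

theorem isAdm_level_mul {M : ℕ} [NeZero M] {f : ℍ → ℂ} (h : IsAdm M f) (r : ℕ) [NeZero r] :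
    IsAdm (M * r) f where
  mdiff := h.mdiff
  texp γ := by
    obtain ⟨s, hs⟩ := h.texp γ
    exact ⟨_, hasTExp_level_mul hs r⟩
  fin := h.fin

end Fermat.Agent.S48.BB.P
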