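/-
S48 (Deligne-Serre), block BB, sub-block P.  TASK BB-P-15.   Sub-architect: helper297.
Statements FROZEN; proved (helper283).
Helper lemmas: same file, namespace `Fermat.Agent.S48.BB.P.Ring`.

`RM M = ℤ[ζ_M, 1/M] ⊆ ℚ̄`.  Key point `inv_one_sub_zpw_mem_RM`: with `x = zpw M b`, `x ^ M = 1`, `x ≠ 1`
(`isPrimitiveRoot_zetaK`, `IsPrimitiveRoot.pow_eq_one_iff_dvd`, `0 < b.val < M`), so `∑_{k<M} x^k = 0` (`geom_sum_mul`/`mul_neg_geom_sum`) and
`(1 - x) * ∑_{k<M} ∑_{j<k} x^j = ∑_{k<M} (1 - x^k) = M`; hence `(1-x)⁻¹ = M⁻¹ * ∑_{k<M} ∑_{j<k} x^j ∈ RM M`.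
`kap_mem_RM`: if `v 0 = 0` then `v 1 ≠ 0` (as `v ≠ 0`; `funext`, `Fin.forall_fin_two`); `a / b^3 = a * (b⁻¹)^3`.
`gCoeff_mem_RM`: `Subring.sum_mem`, `natCast_mem`, `split_ifs`.
-/
import Fermat.Agent.S48.BB.P.Defs

set_option autoImplicit false

noncomputable section

namespace Fermat.Agent.S48.BB.P

open UpperHalfPlane hiding I
open Complex ModularForm EisensteinSeries ModularCurve Matrix CongruenceSubgroup
open Fermat.Agent.S24 Fermat.Agent.S24.B Fermat.Agent.GAL.Mult Fermat.Agent.S48.IS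
open scoped Real MatrixGroups Manifold

local notation "𝕢" => Function.Periodic.qParam

/-- `ℤ[ζ_M, 1/M] ⊆ ℚ̄`. -/
def RM (M : ℕ) [NeZero M] : Subring Kbar :=
  Subring.closure {((zetaK M : Kbarˣ) : Kbar), ((M : Kbar))⁻¹}

theorem zeta_mem_RM (M : ℕ) [NeZero M] : ((zetaK M : Kbarˣ) : Kbar) ∈ RM M :=
  Subring.subset_closure (Set.mem_insert _ _)

theorem inv_mem_RM (M : ℕ) [NeZero M] : ((M : Kbar))⁻¹ ∈ RM M :=
  Subring.subset_closure (Set.mem_insert_of_mem _ rfl)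

theorem zpw_mem_RM (M : ℕ) [NeZero M] (a : ZMod M) : zpw M a ∈ RM M :=
  pow_mem (zeta_mem_RM M) _

namespace Ring

theorem zpw_pow_eq_one (M : ℕ) [NeZero M] (b : ZMod M) : zpw M b ^ M = 1 := by
  unfold zpw
  rw [← pow_mul, mul_comm, pow_mul, ← Units.val_pow_eq_pow_val,
    (isPrimitiveRoot_zetaK M).pow_eq_one, Units.val_one, one_pow]

theorem zpw_ne_one (M : ℕ) [NeZero M] (b : ZMod M) (hb : b ≠ 0) : zpw M b ≠ 1 := by
  unfold zpw
  intro h
  rw [← Units.val_pow_eq_pow_val, Units.val_eq_one,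
    (isPrimitiveRoot_zetaK M).pow_eq_one_iff_dvd] at h
  have h1 : b.val < M := ZMod.val_lt b
  have h2 : b.val = 0 := Nat.eq_zero_of_dvd_of_lt h h1
  exact hb ((ZMod.val_eq_zero b).mp h2)

/-- `(1 - x) * ∑_{k<M} ∑_{j<k} x^j = M` if `x ^ M = 1`, `x ≠ 1`. -/
theorem one_sub_mul_sum {x : Kbar} {M : ℕ} (h1 : x ^ M = 1) (hx : x ≠ 1) :
    (1 - x) * ∑ k ∈ Finset.range M, ∑ j ∈ Finset.range k, x ^ j = (M : Kbar) := by
  have h0 : ∑ k ∈ Finset.range M, x ^ k = 0 := by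
    have h2 := mul_neg_geom_sum x M
    rw [h1, sub_self] at h2
    rcases mul_eq_zero.mp h2 with h3 | h3
    · exact absurd (sub_eq_zero.mp h3).symm hx
    · exact h3
  rw [Finset.mul_sum]
  have h4 : ∀ k ∈ Finset.range M, (1 - x) * ∑ j ∈ Finset.range k, x ^ j = 1 - x ^ k :=
    fun k _ => mul_neg_geom_sum x k
  rw [Finset.sum_congr rfl h4, Finset.sum_sub_distrib, h0, sub_zero, Finset.sum_const,
    Finset.card_range, nsmul_eq_mul, mul_one]

end Ring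

theorem inv_one_sub_zpw_mem_RM (M : ℕ) [NeZero M] (b : ZMod M) (hb : b ≠ 0) :
    (1 - zpw M b)⁻¹ ∈ RM M := by
  have h1 := Ring.one_sub_mul_sum (Ring.zpw_pow_eq_one M b) (Ring.zpw_ne_one M b hb)
  have hne : (1 - zpw M b) ≠ 0 := sub_ne_zero.mpr (Ring.zpw_ne_one M b hb).symm
  have hM : (M : Kbar) ≠ 0 := Nat.cast_ne_zero.mpr (NeZero.ne M)
  have e : (1 - zpw M b)⁻¹ =
      (M : Kbar)⁻¹ * ∑ k ∈ Finset.range M, ∑ j ∈ Finset.range k, zpw M b ^ j := by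
    rw [← h1, mul_inv, mul_assoc, inv_mul_cancel₀, mul_one]
    intro h0
    rw [h0, mul_zero] at h1
    exact hM h1.symm
  rw [e]
  exact mul_mem (inv_mem_RM M)
    (sum_mem fun k _ => sum_mem fun j _ => pow_mem (zpw_mem_RM M b) j)

theorem kap_mem_RM (M : ℕ) [NeZero M] (v : Fin 2 → ZMod M) (hv : v ≠ 0) : kap M v ∈ RM M := by
  unfold kap
  split_ifs with h0
  · have h1 : v 1 ≠ 0 := by
      intro h1
      apply hv
      funext i
      fin_cases i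
      · exact h0
      · exact h1
    rw [div_eq_mul_inv, ← inv_pow]
    exact mul_mem (mul_mem (zpw_mem_RM M _) (add_mem (one_mem _) (zpw_mem_RM M _)))
      (pow_mem (inv_one_sub_zpw_mem_RM M _ h1) 3)
  · exact zero_mem _

theorem gCoeff_mem_RM (M : ℕ) [NeZero M] (v : Fin 2 → ZMod M) (hv : v ≠ 0) (n : ℕ) :
    gCoeff M v n ∈ RM M := by
  unfold gCoeff
  split_ifs with hn
  · exact kap_mem_RM M v hv
  · refine sum_mem fun c _ => sub_mem ?_ ?_
    · split_ifs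
      · exact mul_mem (pow_mem (natCast_mem _ _) 2) (zpw_mem_RM M _)
      · exact zero_mem _
    · split_ifs
      · exact mul_mem (pow_mem (natCast_mem _ _) 2) (zpw_mem_RM M _)
      · exact zero_mem _

end Fermat.Agent.S48.BB.P
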