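/-
S48 (Deligne-Serre), block BB, sub-block P.  TASK BB-P-17.   Sub-architect: helper297.
Helper lemmas: same file, namespace `Fermat.Agent.S48.BB.P.Trans`.

`hasTExp_redSet`: `eisSet_redSet`, `C3 = M³ * C3' M` (`C3`, `C3'`, `field_simp`; `(M:ℂ) ≠ 0`), so
`eisSet (redSet M S) 3 τ / C3 = iota ((M:Kbar)^3)⁻¹ * ∑_{v ∈ S} gv M v τ` (`map_inv₀`, `map_pow`, `map_natCast`, `Finset.sum_div`);
`hasTExp_gv` (each `v ∈ S` is `≠ 0`), finite sums (`HasTExp.add`, `Finset.induction_on`; the zero function has the expansion `0`: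
`HasTExp.const 0` + `map_zero`), `HasTExp.const`, `.mul`, `.pow 4`, times `hasTExp_level_one hasTExp_inv_discriminant M`
(`x / Δ = x * Δ⁻¹`).  `HasTExp` is stated for functions: finish with `funext`/`convert`.
`exists_ua_smul_eq`: `ua_smul_eq`, `colSet_eq_redSet`, `image_redSet`; `S := (Set.toFinite _).toFinset` (`Set.Finite.coe_toFinset`);
`0 ∉ S`: if `v ᵥ* γ̄ = 0` then `v = 0` (multiply by the reduction of `γ⁻¹`, or: `γ̄` has determinant `1`,
`Matrix.vecMul_injective_of_isUnit`/`Matrix.eq_zero_of_vecMul_eq_zero`, `det (γ.map cast) = cast (det γ) = 1` by `Int.cast_det`/`RingHom.map_det`), contradiction with `v 0 = a ≠ 0`.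
-/
import Fermat.Agent.S48.BB.P.GvExp
import Fermat.Agent.S48.BB.P.Decomp
import Fermat.Agent.S48.BB.P.Slash
import Fermat.Agent.S48.BB.P.InvDelta
import Fermat.Agent.S48.BB.P.Level

set_option autoImplicit false

noncomputable section

namespace Fermat.Agent.S48.BB.P

open UpperHalfPlane hiding I
open Complex ModularForm EisensteinSeries ModularCurve Matrix CongruenceSubgroup
open Fermat.Agent.S24 Fermat.Agent.S24.B Fermat.Agent.GAL.Mult Fermat.Agent.S48.IS
open scoped Real MatrixGroups Manifold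

local notation "𝕢" => Function.Periodic.qParam

/-- The explicit `t`-expansion of `(C⁻¹ ∑_{x mod M ∈ S} (x₀ τ + x₁)⁻³)⁴ / Δ`. -/
def uSer (M : ℕ) [NeZero M] (S : Finset (Fin 2 → ZMod M)) : LaurentSeries Kbar :=
  (HahnSeries.C (((M : Kbar) ^ 3)⁻¹) *
      ∑ v ∈ S, HahnSeries.ofPowerSeries ℤ Kbar (PowerSeries.mk (gCoeff M v))) ^ 4 *
    qExpand Kbar M
      (coeffEmb Kbar (HahnSeries.single (-1 : ℤ) 1 * HahnSeries.ofPowerSeries ℤ ℚ etaInvQ))

namespace Trans

theorem hasTExp_congr {N : ℕ} {f g : ℍ → ℂ} {s : LaurentSeries Kbar} (h : HasTExp N f s)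
    (hfg : ∀ τ, f τ = g τ) : HasTExp N g s := by
  have : f = g := funext hfg
  rwa [← this]

theorem hasTExp_zero (N : ℕ) : HasTExp N (0 : ℍ → ℂ) (0 : LaurentSeries Kbar) := by
  have h := HasTExp.const (N := N) 0
  rw [map_zero, map_zero] at h
  exact h

theorem hasTExp_sum (N : ℕ) {ι : Type*} (S : Finset ι) (f : ι → ℍ → ℂ)
    (s : ι → LaurentSeries Kbar) (h : ∀ i ∈ S, HasTExp N (f i) (s i)) :
    HasTExp N (∑ i ∈ S, f i) (∑ i ∈ S, s i) := by
  classical
  induction S using Finset.induction_on with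
  | empty => simpa using hasTExp_zero N
  | insert i S hi ih =>
    rw [Finset.sum_insert hi, Finset.sum_insert hi]
    exact (h i (Finset.mem_insert_self i S)).add
      (ih fun j hj => h j (Finset.mem_insert_of_mem hj))

theorem C3_eq (M : ℕ) [NeZero M] : C3 = (M : ℂ) ^ 3 * C3' M := by
  have hM : (M : ℂ) ≠ 0 := Nat.cast_ne_zero.2 (NeZero.ne M)
  unfold C3 C3'
  field_simp

theorem eisSet_redSet_div (M : ℕ) [NeZero M] (S : Finset (Fin 2 → ZMod M)) (τ : ℍ) :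
    eisSet (redSet M (S : Set (Fin 2 → ZMod M))) 3 τ / C3 =
      iota (((M : Kbar) ^ 3)⁻¹) * ∑ v ∈ S, gv M v τ := by
  have hM : (M : ℂ) ≠ 0 := Nat.cast_ne_zero.2 (NeZero.ne M)
  have hC := GvExp.C3'_ne_zero M
  rw [eisSet_redSet, C3_eq M, map_inv₀, map_pow, map_natCast]
  unfold gv
  rw [← Finset.sum_div]
  field_simp

theorem eq_zero_of_vecMul_map (M : ℕ) (γ : SL(2, ℤ)) (v : Fin 2 → ZMod M)
    (h : v ᵥ* ((γ : Matrix (Fin 2) (Fin 2) ℤ).map (Int.cast : ℤ → ZMod M)) = 0) : v = 0 := by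
  have hdet : ((γ : Matrix (Fin 2) (Fin 2) ℤ).map (Int.cast : ℤ → ZMod M)).det = 1 := by
    have h1 := (Int.castRingHom (ZMod M)).map_det (γ : Matrix (Fin 2) (Fin 2) ℤ)
    rw [γ.det_coe, map_one] at h1
    exact h1.symm
  have hunit : IsUnit ((γ : Matrix (Fin 2) (Fin 2) ℤ).map (Int.cast : ℤ → ZMod M)) := by
    rw [Matrix.isUnit_iff_isUnit_det, hdet]
    exact isUnit_one
  apply Matrix.vecMul_injective_of_isUnit hunit
  show v ᵥ* ((γ : Matrix (Fin 2) (Fin 2) ℤ).map (Int.cast : ℤ → ZMod M)) =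
    0 ᵥ* ((γ : Matrix (Fin 2) (Fin 2) ℤ).map (Int.cast : ℤ → ZMod M))
  rw [h, Matrix.zero_vecMul]

end Trans

theorem hasTExp_redSet (M : ℕ) [NeZero M] (S : Finset (Fin 2 → ZMod M)) (hS : (0 : Fin 2 → ZMod M) ∉ S) :
    HasTExp M
      (fun τ => (eisSet (redSet M (S : Set (Fin 2 → ZMod M))) 3 τ / C3) ^ 4 / discriminant τ)
      (uSer M S) := by
  have hsum := Trans.hasTExp_sum M S (fun v => gv M v)
    (fun v => HahnSeries.ofPowerSeries ℤ Kbar (PowerSeries.mk (gCoeff M v)))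
    (fun v hv => hasTExp_gv M v (fun h => hS (h ▸ hv)))
  have h1 := (((HasTExp.const (N := M) (((M : Kbar) ^ 3)⁻¹)).mul hsum).pow 4).mul
    (hasTExp_level_one hasTExp_inv_discriminant M)
  refine Trans.hasTExp_congr h1 fun τ => ?_
  simp only [Pi.mul_apply, Pi.pow_apply, Finset.sum_apply]
  rw [Trans.eisSet_redSet_div M S τ, div_eq_mul_inv]

theorem exists_ua_smul_eq (M : ℕ) [NeZero M] (a : ZMod M) (ha : a ≠ 0) (γ : SL(2, ℤ)) :
    ∃ S : Finset (Fin 2 → ZMod M), (0 : Fin 2 → ZMod M) ∉ S ∧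
      ∀ τ : ℍ, ua M a (γ • τ) =
        (eisSet (redSet M (S : Set (Fin 2 → ZMod M))) 3 τ / C3) ^ 4 / discriminant τ := by
  classical
  set T : Set (Fin 2 → ZMod M) :=
    (fun v => v ᵥ* ((γ : Matrix (Fin 2) (Fin 2) ℤ).map (Int.cast : ℤ → ZMod M))) '' {v | v 0 = a}
    with hT
  refine ⟨(Set.toFinite T).toFinset, ?_, fun τ => ?_⟩
  · rw [Set.Finite.mem_toFinset]
    rintro ⟨v, hv, hv0⟩
    have hv' : v = 0 := Trans.eq_zero_of_vecMul_map M γ v hv0
    apply ha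
    rw [← (show v 0 = a from hv), hv']
    rfl
  · rw [ua_smul_eq, colSet_eq_redSet, image_redSet, Set.Finite.coe_toFinset]

end Fermat.Agent.S48.BB.P
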