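/-
S48 (Deligne-Serre), block BB, sub-block P.  TASK BB-P-18.   Sub-architect: helper297.
DONE (helper54): statements verbatim, all proofs complete.
Helper lemmas: same file, namespace `Fermat.Agent.S48.BB.P.Int`.

`uSer_mem`: `Subring.mul_mem`, `pow_mem`, `sum_mem`, `C_mem_coeffSub` (`inv_mem_RM`, `inv_pow`), `ofPowerSeries_mem_coeffSub`
(`gCoeff_mem_RM`), `qExpand_mem_coeffSub`, `invDelta_mem_coeffSub`.
`exists_hasTExp_ua_smul`: `a = 0`: `ua_zero`, `s = 0` (`HasTExp.const 0`).  `a ≠ 0`: `exists_ua_smul_eq`, `hasTExp_redSet`, `uSer_mem`.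
Level `M * r`: `hasTExp_level_mul`, `isAdm_level_mul`, `qExpand_mem_coeffSub`, `qExpand_qExpand` (Prelude, Def_ModularCurve_X0; check the
order of the factors, `qExpand_congr`, `mul_comm`).
-/
import Fermat.Agent.S48.BB.P.Trans
import Fermat.Agent.S48.BB.P.Ring
import Fermat.Agent.S48.BB.P.CoeffIn
import Fermat.Agent.S48.BB.P.LevelMul
import Fermat.Agent.S48.BB.P.Zero
import Fermat.Agent.S48.BB.P.AtInfty
import Fermat.Agent.S48.BB.P.Adm

set_option autoImplicit false

noncomputable section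

namespace Fermat.Agent.S48.BB.P

open UpperHalfPlane hiding I
open Complex ModularForm EisensteinSeries ModularCurve Matrix CongruenceSubgroup
open Fermat.Agent.S24 Fermat.Agent.S24.B Fermat.Agent.GAL.Mult Fermat.Agent.S48.IS
open scoped Real MatrixGroups Manifold

local notation "𝕢" => Function.Periodic.qParam

theorem uSer_mem (M : ℕ) [NeZero M] (S : Finset (Fin 2 → ZMod M)) (hS : (0 : Fin 2 → ZMod M) ∉ S) :
    uSer M S ∈ coeffSub (RM M) := by
  unfold uSer
  refine Subring.mul_mem _ (pow_mem (Subring.mul_mem _ (C_mem_coeffSub ?_) (sum_mem fun v hv => ?_)) 4)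
    (qExpand_mem_coeffSub M (invDelta_mem_coeffSub _))
  · rw [← inv_pow]
    exact pow_mem (inv_mem_RM M) 3
  · refine ofPowerSeries_mem_coeffSub fun n => gCoeff_mem_RM M v ?_ n
    rintro rfl
    exact hS hv

/-- **(P-D)** every translate of `u_a` has a `t`-expansion with coefficients in `ℤ[ζ_M, 1/M]`. -/
theorem exists_hasTExp_ua_smul (M : ℕ) [NeZero M] (a : ZMod M) (γ : SL(2, ℤ)) :
    ∃ s : LaurentSeries Kbar, HasTExp M (fun τ => ua M a (γ • τ)) s ∧ ∀ n : ℤ, s.coeff n ∈ RM M := by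
  rcases eq_or_ne a 0 with rfl | ha
  · refine ⟨0, ?_, fun n => ?_⟩
    · rw [ua_zero]
      exact Adm.hasTExp_zero M
    · rw [HahnSeries.coeff_zero]
      exact zero_mem _
  · obtain ⟨S, hS, h⟩ := exists_ua_smul_eq M a ha γ
    refine ⟨uSer M S, ?_, mem_coeffSub.1 (uSer_mem M S hS)⟩
    rw [funext h]
    exact hasTExp_redSet M S hS

/-- **(P-D)** at level `M * r`. -/
theorem exists_hasTExp_ua_smul_level (M r : ℕ) [NeZero M] [NeZero r] (a : ZMod M) (γ : SL(2, ℤ)) :
    ∃ s : LaurentSeries Kbar, HasTExp (M * r) (fun τ => ua M a (γ • τ)) s ∧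
      ∀ n : ℤ, s.coeff n ∈ RM M := by
  obtain ⟨s, hs, hmem⟩ := exists_hasTExp_ua_smul M a γ
  exact ⟨qExpand Kbar r s, hasTExp_level_mul hs r,
    mem_coeffSub.1 (qExpand_mem_coeffSub r (mem_coeffSub.2 hmem))⟩

/-- **(P-B)** at level `M * r`. -/
theorem isAdm_ua_level (M r : ℕ) [NeZero M] [NeZero r] (a : ZMod M) : IsAdm (M * r) (ua M a) :=
  isAdm_level_mul (isAdm_ua M a) r

/-- **(P-B)** at level `M * r`. -/
theorem hasTExp_ua_level (M r : ℕ) [NeZero M] [NeZero r] [NeZero (M * r)] (a : ZMod M) :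
    HasTExp (M * r) (ua M a) (qExpand Kbar (M * r) (coeffEmb Kbar (uQ M a))) := by
  have h := hasTExp_level_mul (hasTExp_ua M a) r
  rw [qExpand_qExpand] at h
  rwa [qExpand_congr (mul_comm r M)] at h

end Fermat.Agent.S48.BB.P
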