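/-
S48 (Deligne-Serre), block BB, sub-block P: everything.   Sub-architect: helper297.
Deliverables: `hasTExp_gv` (P-A), `isAdm_ua`, `hasTExp_ua` (P-B), `ua_smul_Gamma0` (P-C),
`exists_hasTExp_ua_smul(_level)`, `isAdm_ua_level`, `hasTExp_ua_level` (P-D: integrality, level `M * r`).
-/
import Fermat.Agent.S48.BB.P.AtInfty
import Fermat.Agent.S48.BB.P.Adm
import Fermat.Agent.S48.BB.P.Int
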