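/-
S48 (Deligne-Serre), block BB, sub-block P.  The functions `u_a` as elements of `LL (M * r)`.   (helper297)

* `uaLL M r a : LL (M * r)`, `realises_uaLL : Realises (M * r) (uaLL M r a) (uQ M a)`;
* `inv_smul_uaLL` : `γ⁻¹ • u_a = u_{a γ₀₀}` for `γ ∈ Γ₀(M)`;
* `texpLL_smul_uaLL_mem` : all the translates of `u_a` have `t`-expansions with coefficients in `ℤ[ζ_M, 1/M]`.
-/
import Fermat.Agent.S48.BB.P.All

set_option autoImplicit false

noncomputable section

namespace Fermat.Agent.S48.BB.P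

open ModularCurve CongruenceSubgroup
open Fermat.Agent.S24 Fermat.Agent.S24.B Fermat.Agent.GAL.Mult
open scoped MatrixGroups

variable (M r : ℕ) [NeZero M] [NeZero r]

/-- `u_a` as an admissible function of level `M * r`. -/
def uaAB (a : ZMod M) : AB (M * r) := ⟨ua M a, isAdm_ua_level M r a⟩

theorem uaAB_apply (a : ZMod M) (τ : UpperHalfPlane) : (uaAB M r a).1 τ = ua M a τ := rfl

/-- `u_a` as an element of `LL (M * r)`. -/
def uaLL (a : ZMod M) : LL (M * r) := algebraMap (AB (M * r)) (LL (M * r)) (uaAB M r a)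

theorem texpLL_uaLL (a : ZMod M) :
    texpLL (M * r) (uaLL M r a) = qExpand Kbar (M * r) (coeffEmb Kbar (uQ M a)) := by
  unfold uaLL
  rw [texpLL_algebraMap]
  exact texpB_eq (hasTExp_ua_level M r a)

theorem realises_uaLL (a : ZMod M) : Realises (M * r) (uaLL M r a) (uQ M a) := texpLL_uaLL M r a

theorem inv_smul_uaLL (a : ZMod M) (γ : SL(2, ℤ)) (hγ : γ ∈ Gamma0 M) :
    γ⁻¹ • uaLL M r a = uaLL M r (a * ((γ 0 0 : ℤ) : ZMod M)) := by
  unfold uaLL
  rw [smul_algebraMap_AB]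
  congr 1
  apply Subtype.ext
  funext τ
  rw [smul_AB_apply, inv_inv]
  exact ua_smul_Gamma0 M a γ hγ τ

theorem uaLL_zero : uaLL M r 0 = 0 := by
  unfold uaLL
  have h : uaAB M r 0 = 0 := Subtype.ext (ua_zero M)
  rw [h, map_zero]

/-- **(P-D)** in terms of `LL` (for block V). -/
theorem texpLL_smul_uaLL_mem (a : ZMod M) (γ : SL(2, ℤ)) (n : ℤ) :
    (texpLL (M * r) (γ • uaLL M r a)).coeff n ∈ RM M := by
  obtain ⟨s, hs, hmem⟩ := exists_hasTExp_ua_smul_level M r a γ⁻¹
  unfold uaLL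
  rw [smul_algebraMap_AB, texpLL_algebraMap]
  have h : texpB (M * r) (γ • uaAB M r a) = s := texpB_eq hs
  rw [h]
  exact hmem n

end Fermat.Agent.S48.BB.P

end
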