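/-
S48 (Deligne-Serre), block BB, sub-block P.  TASK BB-P-7.   Sub-architect: helper297.
Statements FROZEN; proved (helper283).
Helper lemmas: same file, namespace `Fermat.Agent.S48.BB.P.Split`.

Copy the first half of the proof of `S48.IS.EisQ.eisSet_colSet_eq` (S48/IS/EisQ.lean): `tsum_subtype`,
`finTwoArrowEquiv`, `summable_prod_eisSummand (k := 3)`, `Summable.tsum_prod`, `tsum_int_eq_zero_add_tsum_pnat`.
-/
import Fermat.Agent.S48.BB.P.Defs

set_option autoImplicit false

noncomputable section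

namespace Fermat.Agent.S48.BB.P

open UpperHalfPlane hiding I
open Complex ModularForm EisensteinSeries ModularCurve Matrix CongruenceSubgroup
open Fermat.Agent.S24 Fermat.Agent.S24.B Fermat.Agent.GAL.Mult Fermat.Agent.S48.IS
open scoped Real MatrixGroups Manifold

local notation "𝕢" => Function.Periodic.qParam

theorem eisSet_vecSet_eq_rows (M : ℕ) [NeZero M] (v : Fin 2 → ZMod M) (τ : ℍ) :
    eisSet (vecSet M v) 3 τ = (if v 0 = 0 then rowSum M 0 (v 1) τ else 0) +
      ∑' c : ℕ+, ((if ((c : ℕ) : ZMod M) = v 0 then rowSum M ((c : ℕ) : ℤ) (v 1) τ else 0) +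
        (if ((c : ℕ) : ZMod M) = -v 0 then rowSum M (-((c : ℕ) : ℤ)) (v 1) τ else 0)) := by
  classical
  set F : ℤ × ℤ → ℂ :=
    fun p => if ((p.1 : ℤ) : ZMod M) = v 0 ∧ ((p.2 : ℤ) : ZMod M) = v 1
      then eisSummand 3 ![p.1, p.2] τ else 0 with hFdef
  have hF : Summable F := by
    have h0 := summable_prod_eisSummand (k := 3) le_rfl τ
    refine Summable.of_norm_bounded h0.norm (fun p => ?_)
    simp only [hFdef]
    split_ifs
    · exact le_rfl
    · simp
  have h1 : eisSet (vecSet M v) 3 τ = ∑' p, F p := by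
    unfold eisSet
    rw [tsum_subtype (vecSet M v) (fun x => eisSummand 3 x τ),
      ← (finTwoArrowEquiv ℤ).symm.tsum_eq]
    refine tsum_congr fun p => ?_
    simp [Set.indicator, vecSet, hFdef, finTwoArrowEquiv_symm_apply, Fin.forall_fin_two]
  have hf : ∀ c : ℤ, ∑' d, F (c, d) =
      if (c : ZMod M) = v 0 then rowSum M c (v 1) τ else 0 := by
    intro c
    by_cases h : (c : ZMod M) = v 0
    · simp [hFdef, h, rowSum]
    · simp [hFdef, h]
  have hprod := hF.prod
  have hs1 : Summable fun n : ℕ+ => ∑' d, F (((n : ℕ) : ℤ), d) :=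
    hprod.comp_injective (i := fun n : ℕ+ => ((n : ℕ) : ℤ))
      (fun a b h => PNat.coe_injective (Int.ofNat_injective h))
  have hs2 : Summable fun n : ℕ+ => ∑' d, F (-((n : ℕ) : ℤ), d) :=
    hprod.comp_injective (i := fun n : ℕ+ => -((n : ℕ) : ℤ))
      (fun a b h => PNat.coe_injective (Int.ofNat_injective (neg_injective h)))
  rw [h1, hF.tsum_prod, tsum_int_eq_zero_add_tsum_pnat hprod, add_assoc, ← hs1.tsum_add hs2]
  have h0 : ∑' d, F (0, d) = if v 0 = 0 then rowSum M 0 (v 1) τ else 0 := by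
    rw [hf 0]
    simp only [Int.cast_zero, eq_comm]
  rw [h0]
  congr 1
  refine tsum_congr fun c => ?_
  rw [hf, hf]
  have e1 : (((c : ℕ) : ℤ) : ZMod M) = ((c : ℕ) : ZMod M) := by push_cast; rfl
  have e2 : ((-((c : ℕ) : ℤ) : ℤ) : ZMod M) = v 0 ↔ ((c : ℕ) : ZMod M) = -v 0 := by
    push_cast
    exact neg_eq_iff_eq_neg
  simp only [e1, e2]

end Fermat.Agent.S48.BB.P
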